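import Fermat.Agent.RT.Cond.MatEq
import Fermat.Agent.GalRep.Cyclo
import Fermat.Agent.GalRep.AdicRep
import Fermat.Prelude.Def_GaloisRep_LocalConditions

/-!
# Cyclotomic determinant, unramified and unipotent conditions by equations
-/

set_option autoImplicit false
set_option linter.unusedSectionVars false

noncomputable section

open IsLocalRing

namespace FLTAgent.RTCond

open FLTAgent.Deformation FLTAgent.GalRep

variable {𝒪 : Type} [CommRing 𝒪]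

/-- A scalar equation invariant under conjugation. -/
theorem isMatEq_of_scalar {ι : Type}
    (F : ι → ∀ ⦃A : Type⦄ [CommRing A] [Algebra 𝒪 A], (Gal →* Mat A) → A)
    (hconj : ∀ (i : ι) ⦃A : Type⦄ [CommRing A] [Algebra 𝒪 A] (g : (Mat A)ˣ) (N : Gal →* Mat A),
      F i (conjRep g N) = F i N)
    (hmap : ∀ (i : ι) ⦃A B : Type⦄ [CommRing A] [Algebra 𝒪 A] [CommRing B] [Algebra 𝒪 B]
      (f : A →ₐ[𝒪] B) (N : Gal →* Mat A), F i (mapRep (f : A →+* B) N) = f (F i N)) :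
    IsMatEq 𝒪 fun _A _ _ N => ∀ i, F i N = 0 where
  conj _ _ _ g N h i := by rw [hconj, h]
  map _ _ _ _ _ _ f N h i := by rw [hmap, h, map_zero]
  detect _ _ _ N _ B _ _ f hf h i := hf _ fun j => by rw [← hmap]; exact h j i

/-- `N = 1` on a set of elements. -/
def UnramEq (T : Set Gal) : ∀ ⦃A : Type⦄ [CommRing A] [Algebra 𝒪 A], (Gal →* Mat A) → Prop :=
  fun _A _ _ N => ∀ σ : T, N σ - 1 = 0

theorem isMatEq_unramEq (T : Set Gal) : IsMatEq 𝒪 (UnramEq (𝒪 := 𝒪) T) :=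
  isMatEq_of_expr (fun (σ : T) _A _ _ N => N σ - 1)
    (fun σ _ _ _ g N => by rw [conjRep_apply, mul_sub, sub_mul, mul_one, Units.mul_inv])
    fun σ _ _ _ _ _ _ f N => by
      ext i j
      simp only [mapRep_apply, Matrix.sub_apply, Matrix.map_apply, Matrix.one_apply, map_sub,
        apply_ite (f : _ → _), map_one, map_zero]
      rfl

/-- Trace `2` and determinant `1` on a set of elements. -/
def UnipEq (T : Set Gal) : ∀ ⦃A : Type⦄ [CommRing A] [Algebra 𝒪 A], (Gal →* Mat A) → Prop :=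
  fun _A _ _ N => (∀ σ : T, (N σ).trace - 2 = 0) ∧ ∀ σ : T, (N σ).det - 1 = 0

theorem isMatEq_unipEq (T : Set Gal) : IsMatEq 𝒪 (UnipEq (𝒪 := 𝒪) T) :=
  (isMatEq_of_scalar (fun (σ : T) _A _ _ N => (N σ).trace - 2)
    (fun σ _ _ _ g N => by rw [conjRep_apply, Matrix.trace_units_conj])
    fun σ _ _ _ _ _ _ f N => by
      rw [mapRep_apply, map_sub, map_ofNat]
      congr 1
      simp [Matrix.trace]).and
  (isMatEq_of_scalar (fun (σ : T) _A _ _ N => (N σ).det - 1)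
    (fun σ _ _ _ g N => by rw [conjRep_apply, Matrix.det_units_conj])
    fun σ _ _ _ _ _ _ f N => by
      rw [mapRep_apply, map_sub, map_one]
      congr 1
      exact (AlgHom.map_det f (N σ)).symm)

/-- The determinant is a given function with values in `𝒪`. -/
def DetEq (χ : Gal → 𝒪) : ∀ ⦃A : Type⦄ [CommRing A] [Algebra 𝒪 A], (Gal →* Mat A) → Prop :=
  fun A _ _ N => ∀ σ : Gal, (N σ).det - algebraMap 𝒪 A (χ σ) = 0

theorem isMatEq_detEq (χ : Gal → 𝒪) : IsMatEq 𝒪 (DetEq χ) :=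
  isMatEq_of_scalar (fun (σ : Gal) A _ _ N => (N σ).det - algebraMap 𝒪 A (χ σ))
    (fun σ _ _ _ g N => by rw [conjRep_apply, Matrix.det_units_conj])
    fun σ _ _ _ _ _ _ f N => by
      rw [mapRep_apply, map_sub, AlgHom.commutes]
      congr 1
      exact (AlgHom.map_det f (N σ)).symm

variable [IsLocalRing 𝒪]
variable {A : Type} [CommRing A] [IsLocalRing A] [Algebra 𝒪 A]

theorem det_stdMatrix (ρ : GaloisRepAdic A) (σ : Gal) :
    (stdMatrix ρ σ).det = LinearMap.det (ρ.ρ σ) :=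
  LinearMap.det_toMatrix (stdBasis ρ) (ρ.ρ σ)

theorem stdMatrix_eq_one_iff (ρ : GaloisRepAdic A) (σ : Gal) :
    stdMatrix ρ σ - 1 = 0 ↔ ρ.ρ σ = 1 := by
  rw [sub_eq_zero, stdMatrix, repMatrix_apply, ← LinearMap.toMatrix_one (stdBasis ρ)]
  exact (LinearMap.toMatrix (stdBasis ρ) (stdBasis ρ)).injective.eq_iff

theorem charpoly_eq_sq_iff (ρ : GaloisRepAdic A) (σ : Gal) :
    LinearMap.charpoly (ρ.ρ σ) = (Polynomial.X - 1) ^ 2 ↔
      (stdMatrix ρ σ).trace - 2 = 0 ∧ (stdMatrix ρ σ).det - 1 = 0 := by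
  rw [← LinearMap.charpoly_toMatrix (ρ.ρ σ) (stdBasis ρ), stdMatrix, repMatrix_apply,
    Matrix.charpoly_fin_two]
  set t := (LinearMap.toMatrix (stdBasis ρ) (stdBasis ρ) (ρ.ρ σ)).trace
  set d := (LinearMap.toMatrix (stdBasis ρ) (stdBasis ρ) (ρ.ρ σ)).det
  constructor
  · intro h
    have h0 := congrArg (fun q => Polynomial.coeff q 0) h
    have h1 := congrArg (fun q => Polynomial.coeff q 1) h
    simp [sq, sub_mul, mul_sub, Polynomial.coeff_one, Polynomial.coeff_X] at h0 h1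
    refine ⟨?_, ?_⟩
    · linear_combination -h1
    · linear_combination h0
  · rintro ⟨ht, hd⟩
    rw [show t = 2 from sub_eq_zero.mp ht, show d = 1 from sub_eq_zero.mp hd, map_one, map_ofNat]
    ring

/-- `ψ ∘` cyclotomic character. -/
def detChar {p : ℕ} [Fact p.Prime] (ψ : ℤ_[p] →+* 𝒪) (σ : Gal) : 𝒪 := ψ (cyclo p σ : ℤ_[p])

theorem natCast_mem_maximalIdeal {p : ℕ} (hp : (p : 𝒪) ∈ maximalIdeal 𝒪) (hA : IsCoeff 𝒪 A) :
    (p : A) ∈ maximalIdeal A := by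
  rw [← map_natCast (algebraMap 𝒪 A)]
  intro hu
  exact hp (hA.isLocalHom.map_nonunit _ hu)

theorem algebraMap_padic_sub_natCast_mem {p : ℕ} [Fact p.Prime] (ψ : ℤ_[p] →+* 𝒪) {n a : ℕ}
    {x : ℤ_[p]} (hx : PadicInt.toZModPow n x = (a : ZMod (p ^ n))) :
    algebraMap 𝒪 A (ψ x) - (a : A) ∈ Ideal.span {((p ^ n : ℕ) : A)} := by
  have h : x - (a : ℤ_[p]) ∈ Ideal.span {(p : ℤ_[p]) ^ n} := by
    rw [← PadicInt.ker_toZModPow, RingHom.mem_ker, map_sub, map_natCast, hx, sub_self]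
  obtain ⟨y, hy⟩ := Ideal.mem_span_singleton.mp h
  rw [show (a : A) = algebraMap 𝒪 A (ψ (a : ℤ_[p])) by rw [map_natCast, map_natCast],
    ← map_sub, ← map_sub, hy, map_mul, map_mul, map_pow, map_natCast, map_pow, map_natCast,
    Nat.cast_pow]
  exact Ideal.mem_span_singleton.mpr (dvd_mul_right _ _)

theorem detIsCyclotomic_iff [IsNoetherianRing A] {p : ℕ} [Fact p.Prime] (ψ : ℤ_[p] →+* 𝒪)
    (hp : (p : 𝒪) ∈ maximalIdeal 𝒪) (hA : IsCoeff 𝒪 A) (ρ : GaloisRepAdic A) :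
    ρ.DetIsCyclotomic p ↔ DetEq (detChar ψ) (stdMatrix ρ) := by
  have hpA := natCast_mem_maximalIdeal hp hA
  constructor
  · rintro ⟨-, h⟩ σ
    rw [det_stdMatrix, ← Ideal.mem_bot,
      ← Ideal.iInf_pow_eq_bot_of_isLocalRing (maximalIdeal A) (maximalIdeal.isMaximal A).ne_top,
      Submodule.mem_iInf]
    intro n
    have h1 := h n σ _ fun μ hμ => cyclo_spec p σ hμ
    have h2 := algebraMap_padic_sub_natCast_mem (A := A) ψ (x := (cyclo p σ : ℤ_[p]))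
      (n := n) (ZMod.natCast_zmod_val _).symm
    have hle : Ideal.span {((p ^ n : ℕ) : A)} ≤ maximalIdeal A ^ n := by
      rw [Ideal.span_singleton_le_iff_mem, Nat.cast_pow]
      exact Ideal.pow_mem_pow hpA n
    have := hle (sub_mem h1 h2)
    rwa [sub_sub_sub_cancel_right] at this
  · intro h
    refine ⟨hpA, fun n σ a ha => ?_⟩
    rw [← det_stdMatrix, sub_eq_zero.mp (h σ)]
    obtain ⟨ζ, hζ⟩ := HasEnoughRootsOfUnity.exists_primitiveRoot (AlgebraicClosure ℚ) (p ^ n)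
    exact algebraMap_padic_sub_natCast_mem ψ
      (toZModPow_cyclo_eq_natCast p σ hζ (ha ζ hζ.pow_eq_one))

/-- The elements of the inertia groups over `q`. -/
def inertiaOver (q : ℕ) : Set Gal :=
  {σ | ∃ P : ValuationSubring (AlgebraicClosure ℚ), P.LiesOverPrime q ∧
    σ ∈ P.inertiaSubgroupIn ℚ}

theorem isUnramifiedAt_iff (ρ : GaloisRepAdic A) (q : ℕ) :
    ρ.IsUnramifiedAt q ↔ UnramEq (𝒪 := 𝒪) (inertiaOver q) (stdMatrix ρ) := by
  constructor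
  · rintro h ⟨σ, P, hP, hσ⟩
    exact (stdMatrix_eq_one_iff ρ σ).mpr (h P hP σ hσ)
  · intro h P hP σ hσ
    exact (stdMatrix_eq_one_iff ρ σ).mp (h ⟨σ, P, hP, hσ⟩)

theorem isUnipotentOnInertiaAt_iff (ρ : GaloisRepAdic A) (q : ℕ) :
    ρ.IsUnipotentOnInertiaAt q ↔ UnipEq (𝒪 := 𝒪) (inertiaOver q) (stdMatrix ρ) := by
  constructor
  · intro h
    exact ⟨fun ⟨σ, P, hP, hσ⟩ => ((charpoly_eq_sq_iff ρ σ).mp (h P hP σ hσ)).1,
      fun ⟨σ, P, hP, hσ⟩ => ((charpoly_eq_sq_iff ρ σ).mp (h P hP σ hσ)).2⟩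
  · intro h P hP σ hσ
    exact (charpoly_eq_sq_iff ρ σ).mpr ⟨h.1 ⟨σ, P, hP, hσ⟩, h.2 ⟨σ, P, hP, hσ⟩⟩

variable (𝒪) in
/-- Unramified outside `S` and unipotent on inertia at the primes of `T` other than `p`. -/
def tameCondition (p : ℕ) (S T : Finset ℕ) :
    ∀ ⦃A : Type⦄ [CommRing A] [IsLocalRing A] [Algebra 𝒪 A], GaloisRepAdic A → Prop :=
  fun _A _ _ _ ρ => (∀ q : ℕ, q.Prime → q ∉ S → ρ.IsUnramifiedAt q) ∧
    ∀ q ∈ T, q.Prime → q ≠ p → ρ.IsUnipotentOnInertiaAt q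

/-- The equations of `tameCondition`. -/
def TameEq (p : ℕ) (S T : Finset ℕ) :
    ∀ ⦃A : Type⦄ [CommRing A] [Algebra 𝒪 A], (Gal →* Mat A) → Prop :=
  fun _A _ _ N => (∀ q : {q : ℕ // q.Prime ∧ q ∉ S}, UnramEq (𝒪 := 𝒪) (inertiaOver q) N) ∧
    ∀ q : {q : ℕ // q ∈ T ∧ q.Prime ∧ q ≠ p}, UnipEq (𝒪 := 𝒪) (inertiaOver q) N

theorem isMatEq_tameEq (p : ℕ) (S T : Finset ℕ) : IsMatEq 𝒪 (TameEq (𝒪 := 𝒪) p S T) :=
  (IsMatEq.forall fun _ => isMatEq_unramEq _).and (IsMatEq.forall fun _ => isMatEq_unipEq _)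

theorem tameCondition_iff (p : ℕ) (S T : Finset ℕ) (ρ : GaloisRepAdic A) :
    tameCondition 𝒪 p S T ρ ↔ TameEq (𝒪 := 𝒪) p S T (stdMatrix ρ) :=
  ⟨fun h => ⟨fun q => (isUnramifiedAt_iff ρ q).mp (h.1 q q.2.1 q.2.2),
    fun q => (isUnipotentOnInertiaAt_iff ρ q).mp (h.2 q q.2.1 q.2.2.1 q.2.2.2)⟩,
  fun h => ⟨fun q hq hqS => (isUnramifiedAt_iff ρ q).mpr (h.1 ⟨q, hq, hqS⟩),
    fun q hqT hq hqp => (isUnipotentOnInertiaAt_iff ρ q).mpr (h.2 ⟨q, hqT, hq, hqp⟩)⟩⟩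

theorem isDeformationCondition_tame [Finite (ResidueField 𝒪)] (p : ℕ) (S T : Finset ℕ) :
    GaloisRep.IsDeformationCondition 𝒪 (tameCondition 𝒪 p S T) :=
  isDeformationCondition_of_matEq _ (isMatEq_tameEq p S T)
    fun _A _ _ _ _ _ _ ρ => tameCondition_iff p S T ρ

theorem isDeformationCondition_detIsCyclotomic [Finite (ResidueField 𝒪)]
    [IsAdicComplete (maximalIdeal 𝒪) 𝒪] {p : ℕ} [Fact p.Prime]
    (hp : (p : 𝒪) ∈ maximalIdeal 𝒪) :
    GaloisRep.IsDeformationCondition 𝒪 fun _A _ _ _ ρ => ρ.DetIsCyclotomic p := by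
  obtain ⟨ψ⟩ := exists_padicHom p 𝒪 hp
  exact isDeformationCondition_of_matEq _ (isMatEq_detEq (detChar ψ))
    fun _A _ _ _ _ _ hA ρ => detIsCyclotomic_iff ψ hp hA ρ

end FLTAgent.RTCond
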