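import Fermat.Agent.RT.Cond.FlatClosure
import Fermat.Agent.RT.Cond.Basic
import Fermat.Prelude.Def_GaloisRep_Flat

/-!
# Flatness is a deformation condition
-/

set_option autoImplicit false
set_option linter.unusedSectionVars false

noncomputable section

open IsLocalRing

namespace FLTAgent.RTCond

open FLTAgent.Deformation FLTAgent.FlatModel

variable {A : Type} [CommRing A] [IsLocalRing A]

/-- The level of a representation at an ideal. -/
def Lvl (ρ : GaloisRepAdic A) (I : Ideal A) : Type := ρ.V ⧸ (I • (⊤ : Submodule A ρ.V))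

namespace Lvl

variable (ρ : GaloisRepAdic A) (I : Ideal A)

instance : AddCommGroup (Lvl ρ I) :=
  inferInstanceAs (AddCommGroup (ρ.V ⧸ (I • (⊤ : Submodule A ρ.V))))

instance : Module A (Lvl ρ I) :=
  inferInstanceAs (Module A (ρ.V ⧸ (I • (⊤ : Submodule A ρ.V))))

/-- The projection to a level. -/
def mk : ρ.V →ₗ[A] Lvl ρ I := Submodule.mkQ _

theorem mk_surjective : Function.Surjective (mk ρ I) := Submodule.Quotient.mk_surjective _

theorem mk_eq_mk_iff {x y : ρ.V} : mk ρ I x = mk ρ I y ↔ x - y ∈ I • (⊤ : Submodule A ρ.V) :=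
  Submodule.Quotient.eq _

theorem mk_eq_zero_iff {x : ρ.V} : mk ρ I x = 0 ↔ x ∈ I • (⊤ : Submodule A ρ.V) :=
  Submodule.Quotient.mk_eq_zero _

instance : DistribMulAction Gal (Lvl ρ I) where
  smul σ := ρ.levelAction I σ
  one_smul x := by
    obtain ⟨v, rfl⟩ := mk_surjective ρ I x
    show mk ρ I (ρ.ρ 1 v) = _
    rw [map_one]; rfl
  mul_smul σ τ x := by
    obtain ⟨v, rfl⟩ := mk_surjective ρ I x
    show mk ρ I (ρ.ρ (σ * τ) v) = mk ρ I (ρ.ρ σ (ρ.ρ τ v))
    rw [map_mul]; rfl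
  smul_zero σ := (ρ.levelAction I σ).map_zero
  smul_add σ x y := (ρ.levelAction I σ).map_add x y

theorem smul_mk (σ : Gal) (v : ρ.V) : σ • mk ρ I v = mk ρ I (ρ.ρ σ v) := rfl

theorem smul_comm' (σ : Gal) (a : A) (x : Lvl ρ I) : σ • a • x = a • σ • x :=
  (ρ.levelAction I σ).map_smul a x

theorem finite [Finite (A ⧸ I)] : Finite (Lvl ρ I) := by
  let b := stdBasis ρ
  let f : (Fin 2 → A ⧸ I) → Lvl ρ I := fun c => mk ρ I (∑ i, (c i).out • b i)
  refine Finite.of_surjective f fun x => ?_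
  obtain ⟨v, rfl⟩ := mk_surjective ρ I x
  refine ⟨fun i => Ideal.Quotient.mk I (b.repr v i), (mk_eq_mk_iff ρ I).mpr ?_⟩
  have hv : ∀ w : ρ.V, w - v = w - ∑ i, b.repr v i • b i := fun w => by rw [b.sum_repr]
  rw [hv, ← Finset.sum_sub_distrib]
  refine Submodule.sum_mem _ fun i _ => ?_
  rw [← sub_smul]
  refine Submodule.smul_mem_smul ?_ Submodule.mem_top
  rw [← Ideal.Quotient.eq, Ideal.Quotient.mk_out]

theorem isLevelled [Finite (A ⧸ I)] : IsLevelled (Lvl ρ I) := by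
  obtain ⟨n, hn⟩ := exists_maximalIdeal_pow_le_of_isArtinianRing_quotient I
  obtain ⟨L, hL, h⟩ := ρ.isAdicContinuous n
  refine ⟨L, hL, fun σ hσ x => ?_⟩
  obtain ⟨v, rfl⟩ := mk_surjective ρ I x
  rw [smul_mk, mk_eq_mk_iff]
  exact Submodule.smul_mono hn le_rfl (h σ hσ v)

end Lvl

/-- Flatness at `p` in terms of models by functions. -/
theorem isFlatAt_iff {p : ℕ} [Fact p.Prime] (ρ : GaloisRepAdic A) :
    ρ.IsFlatAt p ↔ Finite (ResidueField A) ∧
      ∀ I : Ideal A, Finite (A ⧸ I) → Nonempty (FunctionModel p (Lvl ρ I)) := by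
  refine and_congr Iff.rfl (forall_congr' fun I => ?_)
  refine ⟨fun h hI => ?_, fun h hI => ?_⟩
  · obtain ⟨H, _, _, hfin, -, -, e, hmul, hgal⟩ := h hI
    have := Lvl.finite ρ I
    exact Flat.nonempty_of_hopf (S := Lvl ρ I) H e hmul hgal
  · obtain ⟨M⟩ := h hI
    have := Lvl.finite ρ I
    exact M.exists_finiteFlat (Lvl.isLevelled ρ I)

/-- A semilinear equivariant map between levels. -/
def lvlMap {B : Type} [CommRing B] [IsLocalRing B] {ρ : GaloisRepAdic A} {ρ' : GaloisRepAdic B}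
    (φ : A →+* B) (f : ρ.V →ₛₗ[φ] ρ'.V) {I : Ideal A} {J : Ideal B} (hIJ : I ≤ J.comap φ) :
    Lvl ρ I →+ Lvl ρ' J :=
  QuotientAddGroup.lift (I • (⊤ : Submodule A ρ.V)).toAddSubgroup
    ((Lvl.mk ρ' J).toAddMonoidHom.comp f.toAddMonoidHom) fun x hx => by
      refine (Lvl.mk_eq_zero_iff ρ' J).mpr ?_
      refine Submodule.smul_induction_on (p := fun x => f x ∈ J • (⊤ : Submodule B ρ'.V)) hx
        (fun a ha v _ => ?_) fun u v hu hv => ?_
      · rw [map_smulₛₗ]
        exact Submodule.smul_mem_smul (hIJ ha) Submodule.mem_top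
      · rw [map_add]
        exact add_mem hu hv

theorem lvlMap_mk {B : Type} [CommRing B] [IsLocalRing B] {ρ : GaloisRepAdic A}
    {ρ' : GaloisRepAdic B} (φ : A →+* B) (f : ρ.V →ₛₗ[φ] ρ'.V) {I : Ideal A} {J : Ideal B}
    (hIJ : I ≤ J.comap φ) (v : ρ.V) : lvlMap φ f hIJ (Lvl.mk ρ I v) = Lvl.mk ρ' J (f v) := rfl

theorem isEquivariantHom_lvlMap {B : Type} [CommRing B] [IsLocalRing B] {ρ : GaloisRepAdic A}
    {ρ' : GaloisRepAdic B} (φ : A →+* B) (f : ρ.V →ₛₗ[φ] ρ'.V)
    (hf : ∀ σ v, f (ρ.ρ σ v) = ρ'.ρ σ (f v)) {I : Ideal A} {J : Ideal B} (hIJ : I ≤ J.comap φ) :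
    Flat.IsEquivariantHom (lvlMap φ f hIJ) := fun σ x => by
  obtain ⟨v, rfl⟩ := Lvl.mk_surjective ρ I x
  rw [Lvl.smul_mk, lvlMap_mk, lvlMap_mk, Lvl.smul_mk, hf]

theorem nonempty_model_congr {p : ℕ} {ρ ρ' : GaloisRepAdic A} (h : ρ.IsEquiv ρ') (I : Ideal A)
    (hM : Nonempty (FunctionModel p (Lvl ρ I))) : Nonempty (FunctionModel p (Lvl ρ' I)) := by
  obtain ⟨e⟩ := h
  have hle : I ≤ I.comap (RingHom.id A) := le_rfl
  refine Flat.nonempty_sub (lvlMap (RingHom.id A) e.symm.toLinearEquiv.toLinearMap hle)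
    (isEquivariantHom_lvlMap _ _ e.symm.map_apply hle) ?_ hM
  intro x y hxy
  have hinv : ∀ x, lvlMap (RingHom.id A) e.toLinearEquiv.toLinearMap hle
      (lvlMap (RingHom.id A) e.symm.toLinearEquiv.toLinearMap hle x) = x := fun x => by
    obtain ⟨v, rfl⟩ := Lvl.mk_surjective ρ' I x
    rw [lvlMap_mk, lvlMap_mk]
    exact congrArg _ (e.toLinearEquiv.apply_symm_apply v)
  rw [← hinv x, hxy, hinv y]

theorem isFlatAt_congr {p : ℕ} [Fact p.Prime] {ρ ρ' : GaloisRepAdic A} (h : ρ.IsEquiv ρ')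
    (hρ : ρ.IsFlatAt p) : ρ'.IsFlatAt p := by
  rw [isFlatAt_iff] at hρ ⊢
  exact ⟨hρ.1, fun I hI => nonempty_model_congr h I (hρ.2 I hI)⟩

section Matrices

variable {B : Type} [CommRing B] [IsLocalRing B] {p : ℕ} [Fact p.Prime]

/-- The coordinatewise map of standard modules. -/
def coordMap (φ : A →+* B) {N : Gal →* Mat A} (hN : MatCont N) {N' : Gal →* Mat B}
    (hN' : MatCont N') : (matRep N hN).V →ₛₗ[φ] (matRep N' hN').V where
  toFun v := fun i => φ (v i)
  map_add' v w := funext fun i => map_add φ (v i) (w i)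
  map_smul' a v := funext fun i => map_mul φ a (v i)

theorem coordMap_equivariant (φ : A →+* B) {N : Gal →* Mat A} (hN : MatCont N)
    (hN' : MatCont (mapRep φ N)) (σ : Gal) (v : (matRep N hN).V) :
    coordMap φ hN hN' ((matRep N hN).ρ σ v) =
      (matRep (mapRep φ N) hN').ρ σ (coordMap φ hN hN' v) :=
  funext fun i => RingHom.map_mulVec φ (N σ) v i

theorem mem_smul_top_matRep_iff {N : Gal →* Mat A} (hN : MatCont N) {I : Ideal A}
    {v : (matRep N hN).V} :
    v ∈ I • (⊤ : Submodule A (matRep N hN).V) ↔ ∀ i, (show Fin 2 → A from v) i ∈ I :=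
  ⟨fun h i => smul_top_coord (LinearMap.proj (R := A) (φ := fun _ : Fin 2 => A) i) h,
    fun h => mem_smul_top_pi h⟩

/-- Flatness descends along an injective map of finite rings, and along jointly injective pairs. -/
theorem isFlatAt_matRep_of_injective {C : Type} [CommRing C] [IsLocalRing C] [Finite A] [Finite B]
    [Finite C] (φ : A →+* B) (φ' : A →+* C)
    (hinj : ∀ x, φ x = 0 → φ' x = 0 → x = 0) {N : Gal →* Mat A} (hN : MatCont N)
    {hN₁ : MatCont (mapRep φ N)} {hN₂ : MatCont (mapRep φ' N)}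
    (h₁ : (matRep (mapRep φ N) hN₁).IsFlatAt p) (h₂ : (matRep (mapRep φ' N) hN₂).IsFlatAt p) :
    (matRep N hN).IsFlatAt p := by
  rw [isFlatAt_iff] at h₁ h₂ ⊢
  refine ⟨Finite.of_surjective _ IsLocalRing.residue_surjective, fun I _ => ?_⟩
  have : ∀ J : Ideal A, Finite (A ⧸ J) := fun J => Finite.of_surjective _ Ideal.Quotient.mk_surjective
  have : ∀ J : Ideal B, Finite (B ⧸ J) := fun J => Finite.of_surjective _ Ideal.Quotient.mk_surjective
  have : ∀ J : Ideal C, Finite (C ⧸ J) := fun J => Finite.of_surjective _ Ideal.Quotient.mk_surjective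
  have h0 : ∀ {R : Type} [CommRing R] [IsLocalRing R] (ψ : A →+* R),
      (⊥ : Ideal A) ≤ (⊥ : Ideal R).comap ψ := fun ψ => bot_le
  let F := (lvlMap φ (coordMap φ hN hN₁) (h0 φ)).prod (lvlMap φ' (coordMap φ' hN hN₂) (h0 φ'))
  have hF : Flat.IsEquivariantHom F := fun σ x => Prod.ext
    (isEquivariantHom_lvlMap _ _ (coordMap_equivariant φ hN hN₁) (h0 φ) σ x)
    (isEquivariantHom_lvlMap _ _ (coordMap_equivariant φ' hN hN₂) (h0 φ') σ x)
  have hFinj : Function.Injective F := by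
    rw [injective_iff_map_eq_zero]
    intro x hx
    obtain ⟨v, rfl⟩ := Lvl.mk_surjective _ _ x
    obtain ⟨hx1, hx2⟩ := Prod.ext_iff.mp hx
    have e1 := (mem_smul_top_matRep_iff hN₁).mp ((Lvl.mk_eq_zero_iff _ _).mp hx1)
    have e2 := (mem_smul_top_matRep_iff hN₂).mp ((Lvl.mk_eq_zero_iff _ _).mp hx2)
    exact (Lvl.mk_eq_zero_iff _ _).mpr ((mem_smul_top_matRep_iff hN).mpr fun i =>
      Ideal.mem_bot.mpr (hinj _ (Ideal.mem_bot.mp (e1 i)) (Ideal.mem_bot.mp (e2 i))))
  have h : Nonempty (FunctionModel p (Lvl (matRep N hN) ⊥)) :=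
    Flat.nonempty_sub F hF hFinj (Flat.nonempty_prod (h₁.2 ⊥ inferInstance) (h₂.2 ⊥ inferInstance))
  have hle : (⊥ : Ideal A) ≤ I.comap (RingHom.id A) := bot_le
  have : Finite (Lvl (matRep N hN) ⊥) := Lvl.finite _ _
  refine Flat.nonempty_quot (Lvl.isLevelled _ _)
    (lvlMap (RingHom.id A) LinearMap.id hle)
    (isEquivariantHom_lvlMap _ _ (fun _ _ => rfl) hle) ?_ h
  intro x
  obtain ⟨v, rfl⟩ := Lvl.mk_surjective _ _ x
  exact ⟨Lvl.mk _ _ v, rfl⟩

/-- Flatness is preserved by maps to finite rings whose kernel has finite index. -/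
theorem isFlatAt_matRep_map [Finite B] (φ : A →+* B) {N : Gal →* Mat A} (hN : MatCont N)
    {hN' : MatCont (mapRep φ N)} (h : (matRep N hN).IsFlatAt p) :
    (matRep (mapRep φ N) hN').IsFlatAt p := by
  rw [isFlatAt_iff] at h ⊢
  refine ⟨Finite.of_surjective _ IsLocalRing.residue_surjective, fun J _ => ?_⟩
  let _ := Fintype.ofFinite B
  let I := J.comap φ
  have : Finite (A ⧸ I) :=
    Finite.of_injective _ (Ideal.quotientMap_injective (I := J) (f := φ))
  have := Lvl.finite (matRep N hN) I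
  let g := lvlMap φ (coordMap φ hN hN') (le_refl I)
  let Φ : (B → Lvl (matRep N hN) I) →+ Lvl (matRep (mapRep φ N) hN') J :=
    { toFun := fun x => ∑ b, b • g (x b)
      map_zero' := by simp
      map_add' := fun x y => by simp [Finset.sum_add_distrib] }
  have hΦ : Flat.IsEquivariantHom Φ := fun σ x => by
    show ∑ b, b • g (σ • x b) = σ • ∑ b, b • g (x b)
    rw [Finset.smul_sum]
    refine Finset.sum_congr rfl fun b _ => ?_
    rw [isEquivariantHom_lvlMap _ _ (coordMap_equivariant φ hN hN') (le_refl I), Lvl.smul_comm']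
  have hlev : IsLevelled (B → Lvl (matRep N hN) I) := by
    obtain ⟨L, hL, hfix⟩ := Lvl.isLevelled (matRep N hN) I
    exact ⟨L, hL, fun σ hσ x => funext fun b => hfix σ hσ (x b)⟩
  refine Flat.nonempty_quot hlev Φ hΦ (fun y => ?_) (Flat.nonempty_pi B (h.2 I inferInstance))
  classical
  obtain ⟨v, rfl⟩ := Lvl.mk_surjective _ _ y
  let e : Fin 2 → (matRep N hN).V := fun i => (Pi.single i (1 : A) : Fin 2 → A)
  refine ⟨∑ i, Pi.single ((show Fin 2 → B from v) i) (Lvl.mk (matRep N hN) I (e i)), ?_⟩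
  rw [map_sum]
  have hone : ∀ (b : B) (x : Lvl (matRep N hN) I), Φ (Pi.single b x) = b • g x := fun b x => by
    show ∑ c, c • g ((Pi.single b x : B → Lvl (matRep N hN) I) c) = _
    rw [Finset.sum_eq_single b (fun c _ hc => by rw [Pi.single_eq_of_ne hc, map_zero, smul_zero])
      (by simp), Pi.single_eq_same]
  simp only [hone]
  show ∑ i, (show Fin 2 → B from v) i • Lvl.mk _ J (coordMap φ hN hN' (e i)) = _
  simp only [← map_smul, ← map_sum]
  congr 1
  show (∑ i, (show Fin 2 → B from v) i • fun j => φ ((Pi.single i (1 : A) : Fin 2 → A) j)) = v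
  funext j
  fin_cases j <;> simp [Finset.sum_apply, Fin.sum_univ_two]

end Matrices

variable {𝒪 : Type} [CommRing 𝒪] [IsLocalRing 𝒪]

variable (𝒪) in
theorem isDeformationCondition_flatAt [Finite (ResidueField 𝒪)] (p : ℕ) [Fact p.Prime] :
    GaloisRep.IsDeformationCondition 𝒪 fun _A _ _ _ ρ => ρ.IsFlatAt p := by
  have tomat : ∀ {A B : Type} [CommRing A] [IsLocalRing A] [CommRing B] [IsLocalRing B]
      (φ : A →+* B) (hφ : IsLocalHom φ) (ρ : GaloisRepAdic A),
      (ρ.baseChangeAlong φ hφ).IsFlatAt p ↔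
        (matRep (mapRep φ (stdMatrix ρ)) ((matCont_repMatrix ρ (stdBasis ρ)).map φ hφ)).IsFlatAt p :=
    fun φ hφ ρ => ⟨isFlatAt_congr (baseChangeAlong_isEquiv_matRep φ hφ (isEquiv_matRep ρ _)),
      isFlatAt_congr (isEquiv_symm (baseChangeAlong_isEquiv_matRep φ hφ (isEquiv_matRep ρ (stdBasis ρ))))⟩
  have back : ∀ {A : Type} [CommRing A] [IsLocalRing A] (ρ : GaloisRepAdic A),
      (matRep (stdMatrix ρ) (matCont_repMatrix ρ (stdBasis ρ))).IsFlatAt p → ρ.IsFlatAt p :=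
    fun ρ => isFlatAt_congr (isEquiv_symm (isEquiv_matRep ρ (stdBasis ρ)))
  refine ⟨fun A _ _ _ _ ρ ρ' he h => isFlatAt_congr he h, ?_, ?_, ?_, ?_⟩
  · intro A B _ _ _ _ _ _ _ hB φ hφ ρ h
    have := hB.finite
    exact (tomat _ hφ ρ).mpr (isFlatAt_matRep_map _ _ (isFlatAt_congr (isEquiv_matRep ρ _) h))
  · intro A B _ _ _ _ _ _ hA hB φ hφ hinj ρ h
    have := hA.finite
    have := hB.finite
    exact back ρ (isFlatAt_matRep_of_injective (φ : A →+* B) (φ : A →+* B)
      (fun x hx _ => hinj (hx.trans (map_zero φ).symm)) _ ((tomat _ hφ ρ).mp h)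
      ((tomat _ hφ ρ).mp h))
  · intro A B C P _ _ _ _ _ _ _ _ _ _ _ _ hA hB _ hP f g pA pB hpA hpB _ hinj _ ρ hA' hB'
    have := hA.finite
    have := hB.finite
    have := hP.finite
    exact back ρ (isFlatAt_matRep_of_injective (pA : P →+* A) (pB : P →+* B)
      (fun x hx hy => hinj (Prod.ext (hx.trans (map_zero pA).symm) (hy.trans (map_zero pB).symm)))
      _ ((tomat _ hpA ρ).mp hA') ((tomat _ hpB ρ).mp hB'))
  · intro A _ _ _ _ _ hloc hres ρ
    have hA : IsCoeff 𝒪 A := ⟨hloc, hres⟩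
    constructor
    · intro h B _ _ _ hB q hq _
      have := hB.finite
      exact (tomat _ hq ρ).mpr (isFlatAt_matRep_map _ _ (isFlatAt_congr (isEquiv_matRep ρ _) h))
    · intro hall
      refine (isFlatAt_iff ρ).mpr ⟨hA.finite_residueField, fun I hI => ?_⟩
      by_cases hI1 : I = ⊤
      · subst hI1
        have : Subsingleton (Lvl ρ ⊤) :=
          Submodule.Quotient.subsingleton_iff.mpr (Submodule.top_smul _)
        exact Flat.nonempty_subsingleton
      have : IsLocalRing (A ⧸ I) := isLocalRing_quotient hI1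
      have : IsArtinianRing (A ⧸ I) := inferInstance
      have hB : GaloisRep.IsArtinianTestAlgebra 𝒪 (A ⧸ I) := (hA.quotient _).isArtinianTestAlgebra
      have hq : IsLocalHom ((Ideal.Quotient.mkₐ 𝒪 I : A →ₐ[𝒪] A ⧸ I) : A →+* A ⧸ I) :=
        hA.isLocalHom_algHom hB.isCoeff _
      have hflat := (tomat _ hq ρ).mp (hall hB _ hq Ideal.Quotient.mk_surjective)
      set φ : A →+* A ⧸ I := ((Ideal.Quotient.mkₐ 𝒪 I : A →ₐ[𝒪] A ⧸ I) : A →+* A ⧸ I)
      have hM := ((isFlatAt_iff _).mp hflat).2 ⊥ (Finite.of_surjective _ Ideal.Quotient.mk_surjective)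
      have hφ0 : ∀ x, φ x = 0 ↔ x ∈ I := fun x => Ideal.Quotient.eq_zero_iff_mem
      have hle : I ≤ (⊥ : Ideal (A ⧸ I)).comap φ := fun x hx =>
        Ideal.mem_comap.mpr (Ideal.mem_bot.mpr ((hφ0 x).mpr hx))
      have hN := matCont_repMatrix ρ (stdBasis ρ)
      refine nonempty_model_congr (isEquiv_symm (isEquiv_matRep ρ (stdBasis ρ))) I
        (Flat.nonempty_sub (lvlMap φ (coordMap φ hN (hN.map φ hq)) hle)
          (isEquivariantHom_lvlMap _ _ (coordMap_equivariant φ hN _) hle) ?_ hM)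
      rw [injective_iff_map_eq_zero]
      intro x hx
      obtain ⟨v, rfl⟩ := Lvl.mk_surjective _ _ x
      have e1 := (mem_smul_top_matRep_iff _).mp ((Lvl.mk_eq_zero_iff _ _).mp hx)
      exact (Lvl.mk_eq_zero_iff _ _).mpr ((mem_smul_top_matRep_iff hN).mpr fun i =>
        (hφ0 _).mp (Ideal.mem_bot.mp (e1 i)))

variable (𝒪) in
/-- The flat condition with unipotent inertia at `T`. -/
theorem isDeformationCondition_flat [Finite (ResidueField 𝒪)]
    [IsAdicComplete (maximalIdeal 𝒪) 𝒪] {p : ℕ} [Fact p.Prime] (hp : (p : 𝒪) ∈ maximalIdeal 𝒪)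
    (S T : Finset ℕ) :
    GaloisRep.IsDeformationCondition 𝒪 fun _A _ _ _ ρ =>
      GaloisRep.flatCondition 𝒪 p S ρ ∧
        ∀ q ∈ T, q.Prime → q ≠ p → ρ.IsUnipotentOnInertiaAt q :=
  isDeformationCondition_congr
    (isDeformationCondition_and
      (isDeformationCondition_and (isDeformationCondition_detIsCyclotomic hp)
        (isDeformationCondition_flatAt 𝒪 p))
      (isDeformationCondition_tame p S T))
    fun _A _ _ _ ρ => by
      simp only [GaloisRep.flatCondition, tameCondition]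
      tauto

end FLTAgent.RTCond
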