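import Fermat.Agent.GalRep.Cyclo
import Fermat.Agent.Char.InertiaLift
import Mathlib.NumberTheory.NumberField.Cyclotomic.Basic

/-!
# An inertia element at an odd prime with nontrivial mod `p` cyclotomic character
-/

set_option autoImplicit false

noncomputable section

namespace FLTAgent.RTCond

open FLTAgent.GalRep Polynomial

local notation "Qbar" => AlgebraicClosure ℚ

/-- At an odd prime some element of inertia squares the `p`-th roots of unity. -/
theorem exists_inertia_sq {p : ℕ} [hpf : Fact p.Prime] (hp2 : p ≠ 2)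
    {P : ValuationSubring Qbar} (hP : P.LiesOverPrime p) :
    ∃ σ ∈ P.inertiaSubgroupIn ℚ, ∀ μ : Qbar, μ ^ p = 1 → σ μ = μ ^ 2 := by
  have hp := hpf.out
  have : NeZero p := ⟨hp.ne_zero⟩
  have : Algebra.IsAlgebraic ℚ Qbar := AlgebraicClosure.isAlgebraic ℚ
  have : IsAlgClosure ℚ Qbar := ⟨inferInstance, inferInstance⟩
  have : Normal ℚ Qbar := IsAlgClosure.normal ℚ Qbar
  obtain ⟨ζ, hζ⟩ := HasEnoughRootsOfUnity.exists_primitiveRoot Qbar (p ^ 1)
  rw [pow_one] at hζ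
  have hp3 : 3 ≤ p := by have := hp.two_le; omega
  have hco : (2 : ℕ).Coprime p :=
    (Nat.coprime_primes Nat.prime_two hp).mpr (Ne.symm hp2)
  have hζ2 : IsPrimitiveRoot (ζ ^ 2) p := hζ.pow_of_coprime 2 hco
  obtain ⟨g, hg⟩ := minpoly.exists_algEquiv_of_root' (K := ℚ) (x := ζ ^ 2) (y := ζ)
    (Algebra.IsAlgebraic.isAlgebraic ζ) (by
      rw [← cyclotomic_eq_minpoly_rat hζ hp.pos, cyclotomic_eq_minpoly_rat hζ2 hp.pos]
      exact minpoly.aeval ℚ _)
  let L := IntermediateField.adjoin ℚ {ζ}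
  have : IsCyclotomicExtension {p} ℚ L := hζ.intermediateField_adjoin_isCyclotomicExtension ℚ
  have : FiniteDimensional ℚ L :=
    IntermediateField.adjoin.finiteDimensional (Algebra.IsAlgebraic.isAlgebraic ζ).isIntegral
  have : IsGalois ℚ L := IsCyclotomicExtension.isGalois {p} ℚ L
  let ζL : L := ⟨ζ, IntermediateField.mem_adjoin_simple_self ℚ ζ⟩
  have hζL : IsPrimitiveRoot ζL p :=
    IsPrimitiveRoot.of_map_of_injective (f := L.val) hζ Subtype.val_injective
  -- the residue of a `p`-power root of unity is `1`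
  have hres : ∀ y : Qbar, y ^ p = 1 → ∃ hy : y ∈ P, IsLocalRing.residue P ⟨y, hy⟩ = 1 := by
    intro y hy
    have hyP : y ∈ P := root_mem p hp.ne_zero hy
    refine ⟨hyP, ?_⟩
    have hchar : CharP (IsLocalRing.ResidueField P) p := by
      refine (CharP.charP_iff_prime_eq_zero hp).mpr ?_
      rw [← map_natCast (IsLocalRing.residue P), IsLocalRing.residue_eq_zero_iff,
        ← ValuationSubring.coe_mem_nonunits_iff]
      exact (show (p : Qbar) ∈ P.nonunits from hP)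
    have := Fact.mk hp
    have h1 : (IsLocalRing.residue P ⟨y, hyP⟩) ^ p = 1 := by
      rw [← map_pow, show (⟨y, hyP⟩ : P) ^ p = 1 from Subtype.ext (by simpa using hy), map_one]
    have h2 : (IsLocalRing.residue P ⟨y, hyP⟩ - 1) ^ p = 0 := by
      rw [sub_pow_char, h1, one_pow, sub_self]
    exact sub_eq_zero.mp (pow_eq_zero_iff hp.ne_zero |>.mp h2)
  have hclose : ∀ x ∈ L, IsIntegral ℤ x → P.valuation (g x - x) < 1 := by
    intro x hx hint
    have := IsCyclotomicExtension.Rat.isIntegralClosure_adjoin_singleton_of_prime hζL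
    have hxint : IsIntegral ℤ (⟨x, hx⟩ : L) :=
      (isIntegral_algHom_iff (L.val.toRingHom.toIntAlgHom) Subtype.val_injective).mp hint
    obtain ⟨z, hz⟩ := (@IsIntegralClosure.isIntegral_iff
      (Algebra.adjoin ℤ ({ζL} : Set L)) ℤ L _ _ _ _ _ this _).mp hxint
    have hmem : (z : L) ∈ (aeval ζL : ℤ[X] →ₐ[ℤ] L).range := by
      rw [← Algebra.adjoin_singleton_eq_range_aeval]
      exact z.2
    obtain ⟨Q, hQ⟩ := hmem
    have hxQ : x = aeval ζ Q := by
      have h := congrArg L.val.toRingHom.toIntAlgHom (hQ.trans hz)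
      exact h.symm.trans (aeval_algHom_apply L.val.toRingHom.toIntAlgHom ζL Q).symm
    obtain ⟨h1P, h1⟩ := hres ζ hζ.pow_eq_one
    obtain ⟨h2P, h2⟩ := hres (ζ ^ 2) hζ2.pow_eq_one
    have hgx : g x = aeval (ζ ^ 2) Q := by
      rw [hxQ, ← hg]
      exact (aeval_algHom_apply (g.toAlgHom.restrictScalars ℤ) ζ Q).symm
    have key : ∀ (y : Qbar) (hy : y ∈ P), IsLocalRing.residue P ⟨y, hy⟩ = 1 →
        ∃ w : P, (w : Qbar) = aeval y Q ∧ IsLocalRing.residue P w = Q.eval₂ (Int.castRingHom _) 1 := by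
      intro y hy h
      refine ⟨aeval (⟨y, hy⟩ : P) Q,
        (aeval_algHom_apply (P.subtype.toIntAlgHom) (⟨y, hy⟩ : P) Q).symm, ?_⟩
      rw [← h]
      exact Polynomial.hom_eval₂ _ _ _ _ |>.trans (by congr 1)
    obtain ⟨w1, hw1, hr1⟩ := key ζ h1P h1
    obtain ⟨w2, hw2, hr2⟩ := key _ h2P h2
    rw [hgx, hxQ, ← hw1, ← hw2]
    refine (P.valuation_lt_one_iff (w2 - w1)).mp ?_
    rw [← IsLocalRing.residue_eq_zero_iff, map_sub, hr1, hr2, sub_self]
  obtain ⟨σ, hσI, hσ⟩ := GalChar.exists_mem_inertiaSubgroupIn_eq_on P L g hclose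
  refine ⟨σ, hσI, fun μ hμ => ?_⟩
  have hσζ : σ ζ = ζ ^ 2 := (hσ ζ ζL.2).trans hg
  obtain ⟨j, -, rfl⟩ := hζ.eq_pow_of_pow_eq_one hμ
  rw [map_pow, hσζ, ← pow_mul, ← pow_mul, mul_comm]

/-- At an odd prime some element of inertia raises the `p`-th roots of unity to a power `≢ 1`. -/
theorem exists_inertia_cyclo_ne_one {p : ℕ} [hpf : Fact p.Prime] (hp2 : p ≠ 2)
    {P : ValuationSubring Qbar} (hP : P.LiesOverPrime p) :
    ∃ σ ∈ P.inertiaSubgroupIn ℚ, IsUnit (1 - (cyclo p σ : ℤ_[p])) := by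
  obtain ⟨σ, hσI, hσ⟩ := exists_inertia_sq hp2 hP
  have hp := hpf.out
  have hp3 : 3 ≤ p := by have := hp.two_le; omega
  obtain ⟨ζ, hζ⟩ := HasEnoughRootsOfUnity.exists_primitiveRoot Qbar (p ^ 1)
  rw [pow_one] at hζ
  have hσζ : σ ζ = ζ ^ 2 := hσ ζ hζ.pow_eq_one
  refine ⟨σ, hσI, ?_⟩
  have h1 := toZModPow_cyclo_eq_natCast p σ (n := 1) (j := 2) (by rwa [pow_one]) hσζ
  by_contra hu
  have hker : (1 - (cyclo p σ : ℤ_[p])) ∈ RingHom.ker (PadicInt.toZModPow 1) := by
    rw [PadicInt.ker_toZModPow, pow_one, ← PadicInt.maximalIdeal_eq_span_p]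
    exact hu
  rw [RingHom.mem_ker, map_sub, map_one, h1, sub_eq_zero] at hker
  have h := (ZMod.natCast_eq_natCast_iff' 1 2 (p ^ 1)).mp (by simpa using hker)
  rw [pow_one, Nat.one_mod_eq_one.mpr hp.one_lt.ne', Nat.mod_eq_of_lt (by omega)] at h
  omega

end FLTAgent.RTCond
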