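import Fermat.Agent.FlatModel.HopfOfFunctions
import Mathlib.RingTheory.HopfAlgebra.Convolution
import Mathlib.LinearAlgebra.FreeModule.PID

/-!
# Closure properties of models by functions

Sub-objects, finite products and quotients of finite Galois modules with a model by functions
have a model by functions, and so does the group of points of a finite flat Hopf algebra.
-/

set_option autoImplicit false
set_option linter.unusedSectionVars false

noncomputable section

namespace FLTAgent.RTCond.Flat

open FLTAgent.FlatModel FLTAgent.Frobenius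
open scoped TensorProduct

local notation "Qbar" => AlgebraicClosure ℚ

variable {l : ℕ}

set_option quotPrecheck false in
local notation "Oℓ" => ↥(GaloisRep.ratLocalizedAt l)

variable {S T : Type} [AddCommGroup S] [DistribMulAction Γℚ S] [AddCommGroup T]
  [DistribMulAction Γℚ T]

/-- An equivariant homomorphism. -/
def IsEquivariantHom (φ : S →+ T) : Prop := ∀ (σ : Γℚ) (x : S), φ (σ • x) = σ • φ x

omit [AddCommGroup S] [DistribMulAction Γℚ S] [AddCommGroup T] [DistribMulAction Γℚ T] in
/-- `prodFun` is natural. -/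
theorem pullback_prodFun_mem {X Y : Type} {H : Subalgebra Oℓ (Y → Qbar)}
    {H' : Subalgebra Oℓ (X → Qbar)} (φ : X → Y) (hH : ∀ f : H, pullback l φ f.1 ∈ H')
    (w : H ⊗[Oℓ] H) :
    pullback l (Prod.map φ φ) (prodFun H H.val w) ∈ (prodFun H' H'.val).range := by
  induction w using TensorProduct.induction_on with
  | zero => simp
  | tmul f g => exact ⟨⟨_, hH f⟩ ⊗ₜ ⟨_, hH g⟩, funext fun p => by simp⟩
  | add a b ha hb => rw [map_add, map_add]; exact add_mem ha hb

omit [AddCommGroup S] [DistribMulAction Γℚ S] [AddCommGroup T] [DistribMulAction Γℚ T] in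
theorem le_comap_of_map_le {X Y : Type} {H : Subalgebra Oℓ (Y → Qbar)}
    {H' : Subalgebra Oℓ (X → Qbar)} {φ : X → Y} (h : H.map (pullback l φ) ≤ H') (f : H) :
    pullback l φ f.1 ∈ H' :=
  h ⟨f.1, f.2, rfl⟩

theorem map_le_intFun {φ : S →+ T} (hφ : IsEquivariantHom φ) (M : FunctionModel l T) :
    M.H.map (pullback l φ) ≤ intFun l S := by
  rintro _ ⟨f, hf, rfl⟩
  have h := mem_intFun.mp (M.le_intFun hf)
  refine mem_intFun.mpr ⟨fun σ x => ?_, fun x => h.2 _⟩
  show f (φ (σ • x)) = σ (f (φ x))
  rw [hφ]
  exact h.1 σ _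

/-- The functions pulled back along a homomorphism satisfy the group law conditions in any
algebra containing them. -/
theorem map_le_lawful {φ : S →+ T} (M : FunctionModel l T) {H' : Subalgebra Oℓ (S → Qbar)}
    (h : M.H.map (pullback l φ) ≤ H') :
    M.H.map (pullback l φ) ≤
      ((prodFun H' H'.val).range.comap (pullback l fun p : S × S => p.1 + p.2)) ⊓
        H'.comap (pullback l fun x : S => -x) := by
  rintro _ ⟨f, hf, rfl⟩
  refine ⟨?_, ?_⟩
  · obtain ⟨w, hw⟩ := M.add_mem ⟨f, hf⟩
    show pullback l (fun p : S × S => p.1 + p.2) (pullback l φ f) ∈ (prodFun H' H'.val).range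
    convert pullback_prodFun_mem φ (le_comap_of_map_le h) w using 1
    funext p
    simp only [AlgHom.toRingHom_eq_coe, pullback_apply, map_add]
    exact (congrFun hw (φ p.1, φ p.2)).symm
  · show pullback l (fun x : S => -x) (pullback l φ f) ∈ H'
    convert h ⟨_, M.neg_mem ⟨f, hf⟩, rfl⟩ using 1
    funext x
    simp

/-- A submodule of a module with a model has a model. -/
def sub (φ : S →+ T) (hφ : IsEquivariantHom φ) (hinj : Function.Injective φ)
    (M : FunctionModel l T) : FunctionModel l S where
  H := M.H.map (pullback l φ)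
  le_intFun := map_le_intFun hφ M
  separates x y h := hinj (M.separates _ _ fun f => h ⟨_, f.1, f.2, rfl⟩)
  add_mem f := (map_le_lawful M le_rfl f.2).1
  neg_mem f := (map_le_lawful M le_rfl f.2).2

theorem nonempty_sub (φ : S →+ T) (hφ : IsEquivariantHom φ) (hinj : Function.Injective φ)
    (h : Nonempty (FunctionModel l T)) : Nonempty (FunctionModel l S) :=
  h.map (sub φ hφ hinj)

/-- A product of two modules with models has a model. -/
theorem nonempty_prod (hS : Nonempty (FunctionModel l S)) (hT : Nonempty (FunctionModel l T)) :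
    Nonempty (FunctionModel l (S × T)) := by
  obtain ⟨M⟩ := hS
  obtain ⟨M'⟩ := hT
  let H := M.H.map (pullback l (AddMonoidHom.fst S T)) ⊔ M'.H.map (pullback l (AddMonoidHom.snd S T))
  have hlaw := sup_le (map_le_lawful (φ := AddMonoidHom.fst S T) M (le_sup_left : _ ≤ H))
    (map_le_lawful (φ := AddMonoidHom.snd S T) M' (le_sup_right : _ ≤ H))
  refine ⟨⟨H, sup_le (map_le_intFun (φ := AddMonoidHom.fst S T) (fun _ _ => rfl) M)
    (map_le_intFun (φ := AddMonoidHom.snd S T) (fun _ _ => rfl) M'), fun x y h => Prod.ext ?_ ?_,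
    fun f => (hlaw f.2).1, fun f => (hlaw f.2).2⟩⟩
  · exact M.separates _ _ fun f => h ⟨_, (le_sup_left : _ ≤ H) ⟨f.1, f.2, rfl⟩⟩
  · exact M'.separates _ _ fun f => h ⟨_, (le_sup_right : _ ≤ H) ⟨f.1, f.2, rfl⟩⟩

/-- A finite product of copies of a module with a model has a model. -/
theorem nonempty_pi (ι : Type) (h : Nonempty (FunctionModel l S)) :
    Nonempty (FunctionModel l (ι → S)) := by
  obtain ⟨M⟩ := h
  let ev : ι → (ι → S) →+ S := fun i => Pi.evalAddMonoidHom (fun _ : ι => S) i
  let H := ⨆ i, M.H.map (pullback l (ev i))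
  have hlaw := iSup_le fun i => map_le_lawful (φ := ev i) M (le_iSup (fun i => M.H.map (pullback l (ev i))) i)
  refine ⟨⟨H, iSup_le fun i => map_le_intFun (φ := ev i) (fun _ _ => rfl) M,
    fun x y h => funext fun i => M.separates _ _ fun f => h
      ⟨_, le_iSup (fun i => M.H.map (pullback l (ev i))) i ⟨f.1, f.2, rfl⟩⟩,
    fun f => (hlaw f.2).1, fun f => (hlaw f.2).2⟩⟩

/-- A trivial module has a model. -/
theorem nonempty_subsingleton [Subsingleton S] : Nonempty (FunctionModel l S) := by
  refine ⟨⟨⊥, bot_le, fun x y _ => Subsingleton.elim x y, fun f => ?_, fun f => ?_⟩⟩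
  · refine ⟨f ⊗ₜ 1, funext fun p => ?_⟩
    simp [Subsingleton.elim (p.1 + p.2) p.1]
  · convert f.2 using 1
    funext x
    rw [Subsingleton.elim (-x) x]

section Quotient

variable [Fact l.Prime]

theorem free_subalgebra {X : Type} [MulAction Γℚ X] [Finite X] (hX : IsLevelled X)
    {H : Subalgebra Oℓ (X → Qbar)} (hH : H ≤ intFun l X) : Module.Free Oℓ H := by
  have := finite_of_le_intFun hX hH
  have hinj : Function.Injective (algebraMap Oℓ Qbar) :=
    (algebraMap ℚ Qbar).injective.comp Subtype.val_injective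
  have : FaithfulSMul Oℓ Qbar := (faithfulSMul_iff_algebraMap_injective _ _).mpr hinj
  have : Module.IsTorsionFree Oℓ Qbar := inferInstance
  have : Module.IsTorsionFree Oℓ (X → Qbar) := inferInstance
  have : Module.IsTorsionFree Oℓ H :=
    Function.Injective.moduleIsTorsionFree (H.val) Subtype.val_injective fun r x => rfl
  exact Module.free_of_finite_type_torsion_free'

theorem linearIndependent_basis {X : Type} [MulAction Γℚ X] {H : Subalgebra Oℓ (X → Qbar)}
    (hH : H ≤ intFun l X) {ι : Type*} (b : Module.Basis ι Oℓ H) :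
    LinearIndependent Qbar fun i => (b i).1 :=
  linearIndependent_qbar (fun i => (hH (b i).2).1)
    (b.linearIndependent.map' H.val.toLinearMap (LinearMap.ker_eq_bot.mpr Subtype.val_injective))

theorem exists_smul_mem {X : Type} [MulAction Γℚ X] [Finite X] (hX : IsLevelled X)
    {H : Subalgebra Oℓ (X → Qbar)} (hH : H ≤ intFun l X)
    (hsep : ∀ x y : X, (∀ f : H, f.1 x = f.1 y) → x = y) {g : X → Qbar} (hg : g ∈ eqFun l X) :
    ∃ c : ℕ, c ≠ 0 ∧ c • g ∈ H := by
  classical
  have := finite_of_le_intFun hX hH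
  have := free_subalgebra hX hH
  let b := Module.Free.chooseBasis Oℓ H
  have hli := linearIndependent_basis hH b
  have hspan : Submodule.span Qbar (Set.range fun i => (b i).1) = ⊤ := by
    rw [eq_top_iff, ← span_eq_top_of_separates H hsep, Submodule.span_le]
    rintro _ ⟨f, rfl⟩
    show f.1 ∈ Submodule.span Qbar (Set.range fun i => (b i).1)
    rw [← b.sum_repr f, AddSubmonoidClass.coe_finsetSum]
    refine Submodule.sum_mem _ fun i _ => ?_
    rw [Subalgebra.coe_smul, ← algebraMap_smul Qbar]
    exact Submodule.smul_mem _ _ (Submodule.subset_span ⟨i, rfl⟩)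
  let B := Module.Basis.mk hli hspan.ge
  set a := B.repr g with ha
  have hfix : ∀ i (σ : Γℚ), σ (a i) = a i := by
    intro i σ
    refine sub_eq_zero.mp (Fintype.linearIndependent_iff.mp hli (fun i => σ (a i) - a i) ?_ i)
    funext x
    have h0 : ∀ y, ∑ i, a i * (b i).1 y = g y := fun y => by
      have := congrFun (B.sum_repr g) y
      simp only [Finset.sum_apply, Pi.smul_apply, smul_eq_mul] at this
      rw [← ha] at this
      simpa only [B, Module.Basis.coe_mk] using this
    have h1 := congrArg σ (h0 (σ⁻¹ • x))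
    rw [← (mem_eqFun.mp hg) σ, smul_inv_smul, map_sum, ← h0 x] at h1
    simp only [map_mul, ← (mem_eqFun.mp (hH (b _).2).1) σ, smul_inv_smul] at h1
    simp [Finset.sum_apply, sub_mul, Finset.sum_sub_distrib, h1]
  have : Algebra.IsAlgebraic ℚ Qbar := AlgebraicClosure.isAlgebraic ℚ
  have : IsAlgClosure ℚ Qbar := ⟨inferInstance, inferInstance⟩
  have : Normal ℚ Qbar := IsAlgClosure.normal ℚ Qbar
  have : IsGalois ℚ Qbar := ⟨⟩
  choose q hq using fun i =>
    (InfiniteGalois.mem_range_algebraMap_iff_fixed (k := ℚ) (a i)).mpr fun σ => hfix i σ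
  refine ⟨∏ i, (q i).den, Finset.prod_ne_zero_iff.mpr fun i _ => (q i).den_nz, ?_⟩
  have hmem : ∀ i, ((∏ j, (q j).den : ℕ) : Qbar) • (a i • (b i).1) ∈ H := by
    intro i
    rw [smul_smul, ← hq i, ← map_natCast (algebraMap ℚ Qbar), ← map_mul]
    have hint : ∃ z : ℤ, ((∏ j, (q j).den : ℕ) : ℚ) * q i = z := by
      refine ⟨((∏ j ∈ Finset.univ.erase i, (q j).den : ℕ) : ℤ) * (q i).num, ?_⟩
      rw [← Finset.prod_erase_mul _ _ (Finset.mem_univ i), Int.cast_mul, Int.cast_natCast,
        Nat.cast_mul, mul_assoc, mul_comm ((q i).den : ℚ), Rat.mul_den_eq_num]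
    obtain ⟨z, hz⟩ := hint
    rw [hz, map_intCast, Int.cast_smul_eq_zsmul]
    exact zsmul_mem (b i).2 z
  have e : (∏ i, (q i).den) • g = ∑ i, ((∏ j, (q j).den : ℕ) : Qbar) • (a i • (b i).1) := by
    rw [← Finset.smul_sum, Nat.cast_smul_eq_nsmul]
    congr 1
    conv_lhs => rw [← B.sum_repr g]
    simp [B, ha]
  rw [e]
  exact sum_mem fun i _ => hmem i

/-- A quotient of a module with a model has a model. -/
theorem nonempty_quot [Finite S] (hS : IsLevelled S) (φ : S →+ T) (hφ : IsEquivariantHom φ)
    (hsurj : Function.Surjective φ) (h : Nonempty (FunctionModel l S)) :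
    Nonempty (FunctionModel l T) := by
  classical
  obtain ⟨M⟩ := h
  have : Finite T := Finite.of_surjective _ hsurj
  have hT : IsLevelled T := by
    obtain ⟨L, hL, hfix⟩ := hS
    refine ⟨L, hL, fun σ hσ t => ?_⟩
    obtain ⟨s, rfl⟩ := hsurj t
    rw [← hφ, hfix σ hσ]
  let H' : Subalgebra Oℓ (T → Qbar) := M.H.comap (pullback l φ)
  have hmem : ∀ f : H', pullback l φ f.1 ∈ M.H := fun f => f.2
  have hle : H' ≤ intFun l T := by
    intro f hf
    have h := mem_intFun.mp (M.le_intFun hf)
    refine mem_intFun.mpr ⟨fun σ t => ?_, fun t => ?_⟩ <;> obtain ⟨s, rfl⟩ := hsurj t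
    · rw [← hφ]; exact h.1 σ s
    · exact h.2 s
  refine ⟨⟨H', hle, fun t t' hall => ?_, fun f => ?_, fun f => ?_⟩⟩
  · -- separation by traces along the fibres
    by_contra hne
    let := Fintype.ofFinite S
    let tr : (S → Qbar) →ₗ[Qbar] (T → Qbar) :=
      { toFun := fun g u => ∑ s, if φ s = u then g s else 0
        map_add' := fun g g' => funext fun u => by
          simp [← Finset.sum_add_distrib, ite_add_zero]
        map_smul' := fun c g => funext fun u => by simp [Finset.mul_sum] }
    have hkey : ∀ g : S → Qbar, tr g t = tr g t' := by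
      intro g
      have hg : g ∈ Submodule.span Qbar (Set.range fun f : M.H => (f.1 : S → Qbar)) := by
        rw [span_eq_top_of_separates M.H M.separates]; trivial
      induction hg using Submodule.span_induction with
      | mem u hu =>
        obtain ⟨f, rfl⟩ := hu
        have hk : tr f.1 ∈ eqFun l T := fun σ u => by
          simp only [tr, LinearMap.coe_mk, AddHom.coe_mk, map_sum]
          refine (Fintype.sum_equiv (MulAction.toPerm σ) _ _ fun s => ?_).symm
          rw [MulAction.toPerm_apply, hφ, smul_left_cancel_iff]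
          split
          · exact ((M.le_intFun f.2).1 σ s).symm
          · exact map_zero σ
        obtain ⟨c, hc, hcH⟩ := exists_smul_mem hS M.le_intFun M.separates
          (g := pullback l φ (tr f.1)) fun σ s => by
            simp only [pullback_apply]; rw [hφ]; exact hk σ (φ s)
        have h1 : c • tr f.1 t = c • tr f.1 t' := hall ⟨c • tr f.1, by
          show pullback l φ (c • tr f.1) ∈ M.H
          rwa [map_nsmul]⟩
        exact smul_right_injective Qbar hc h1
      | zero => simp
      | add a b _ _ ha hb => simp only [map_add, Pi.add_apply, ha, hb]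
      | smul c a _ ha => simp only [map_smul, Pi.smul_apply, ha]
    obtain ⟨s, rfl⟩ := hsurj t
    have := hkey (Pi.single s 1)
    simp only [tr, LinearMap.coe_mk, AddHom.coe_mk, ← Finset.sum_filter] at this
    rw [Finset.sum_pi_single', Finset.sum_pi_single', if_pos (by simp), if_neg (by simpa using hne)]
      at this
    exact one_ne_zero this
  · -- the group law
    have := finite_of_le_intFun hS M.le_intFun
    have := free_subalgebra hS M.le_intFun
    have := finite_of_le_intFun hT hle
    have := free_subalgebra hT hle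
    let b := Module.Free.chooseBasis Oℓ M.H
    let e := Module.Free.chooseBasis Oℓ H'
    obtain ⟨w, hw⟩ := M.add_mem ⟨_, hmem f⟩
    obtain ⟨c, rfl⟩ := TensorProduct.eq_repr_basis_left b w
    have hb := linearIndependent_basis M.le_intFun b
    have he := linearIndependent_basis hle e
    have hexp : ∀ x y, f.1 (φ x + φ y) = ∑ i, (b i).1 x * (c i).1 y := by
      intro x y
      have := congrFun hw (x, y)
      rw [Finsupp.sum_fintype _ _ (fun i => TensorProduct.tmul_zero _ _)] at this
      simpa [Finset.sum_apply, map_sum] using this.symm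
    have hinv : ∀ (i) (y k : S), φ k = 0 → (c i).1 (y + k) = (c i).1 y := by
      intro i y k hk
      refine sub_eq_zero.mp (Fintype.linearIndependent_iff.mp hb
        (fun i => (c i).1 (y + k) - (c i).1 y) ?_ i)
      funext x
      have h1 := hexp x (y + k)
      rw [map_add, hk, add_zero, hexp] at h1
      simp [Finset.sum_apply, sub_mul, Finset.sum_sub_distrib]
      simp only [mul_comm _ ((b _).1 x), ← h1, sub_self]
    let sec : T → S := Function.surjInv hsurj
    have hsec : ∀ t, φ (sec t) = t := Function.surjInv_eq hsurj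
    have hdesc : ∀ g : M.H, (∀ y k, φ k = 0 → g.1 (y + k) = g.1 y) →
        ∃ g' : H', pullback l φ g'.1 = g.1 := by
      intro g hg
      have hval : pullback l φ (fun t => g.1 (sec t)) = g.1 := funext fun s => by
        have := hg s (sec (φ s) - s) (by rw [map_sub, hsec, sub_self])
        rwa [add_sub_cancel] at this
      exact ⟨⟨fun t => g.1 (sec t), by show pullback l φ _ ∈ M.H; rw [hval]; exact g.2⟩, hval⟩
    choose c' hc' using fun i => hdesc (c i) (hinv i)
    let d : _ → M.H := fun j => ∑ i, e.repr (c' i) j • b i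
    have hexp2 : ∀ x t, f.1 (φ x + t) = ∑ j, (d j).1 x * (e j).1 t := by
      intro x t
      obtain ⟨y, rfl⟩ := hsurj t
      rw [hexp]
      have hy : ∀ i, (c i).1 y = ∑ j, algebraMap Oℓ Qbar (e.repr (c' i) j) * (e j).1 (φ y) := by
        intro i
        rw [← hc' i, pullback_apply]
        conv_lhs => rw [← e.sum_repr (c' i)]
        simp [Finset.sum_apply, Algebra.smul_def]
      simp only [hy, Finset.mul_sum, d, AddSubmonoidClass.coe_finsetSum, Finset.sum_apply,
        Finset.sum_mul]
      rw [Finset.sum_comm]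
      refine Finset.sum_congr rfl fun j _ => Finset.sum_congr rfl fun i _ => ?_
      simp [Algebra.smul_def]
      ring
    have hdinv : ∀ j x k, φ k = 0 → (d j).1 (x + k) = (d j).1 x := by
      intro j x k hk
      refine sub_eq_zero.mp (Fintype.linearIndependent_iff.mp he
        (fun j => (d j).1 (x + k) - (d j).1 x) ?_ j)
      funext t
      have h1 := hexp2 (x + k) t
      rw [map_add, hk, add_zero, hexp2] at h1
      simp [Finset.sum_apply, sub_mul, Finset.sum_sub_distrib, h1]
    choose d' hd' using fun j => hdesc (d j) (hdinv j)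
    refine ⟨∑ j, d' j ⊗ₜ e j, funext fun p => ?_⟩
    obtain ⟨x, hx⟩ := hsurj p.1
    simp only [map_sum, Finset.sum_apply, AlgHom.toRingHom_eq_coe, RingHom.coe_coe, prodFun_tmul]
    rw [← hx, hexp2]
    exact Finset.sum_congr rfl fun j _ => congrArg (· * _) (congrFun (hd' j) x)
  · show pullback l φ (fun t => f.1 (-t)) ∈ M.H
    convert M.neg_mem ⟨_, hmem f⟩ using 1
    funext s
    simp

/-- The group of points of a finite flat Hopf algebra has a model by functions. -/
theorem nonempty_of_hopf [Finite S] (H : Type) [CommRing H] [HopfAlgebra Oℓ H] [Module.Finite Oℓ H]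
    (e : WithConv (H →ₐ[Oℓ] Qbar) ≃ S) (hmul : ∀ f g, e (f * g) = e f + e g)
    (hgal : ∀ (σ : Γℚ) (f g : WithConv (H →ₐ[Oℓ] Qbar)),
      (∀ h : H, g h = σ (f h)) → e g = σ • e f) :
    Nonempty (FunctionModel l S) := by
  let Φ : H →ₐ[Oℓ] (S → Qbar) := AlgHom.pi fun s => (e.symm s).ofConv
  have hΦ : ∀ h s, Φ h s = e.symm s h := fun h s => rfl
  have he1 : e 1 = 0 := by
    have := hmul 1 1
    rwa [one_mul, left_eq_add] at this
  refine ⟨⟨Φ.range, ?_, fun x y h => ?_, ?_, ?_⟩⟩
  · rintro _ ⟨h, rfl⟩
    refine mem_intFun.mpr ⟨fun σ s => ?_, fun s => ?_⟩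
    · let g : WithConv (H →ₐ[Oℓ] Qbar) := WithConv.toConv
        ((AlgHom.restrictScalars Oℓ σ.toAlgHom).comp (e.symm s).ofConv)
      have hg := hgal σ (e.symm s) g fun _ => rfl
      rw [Equiv.apply_symm_apply, ← Equiv.eq_symm_apply] at hg
      show Φ h (σ • s) = σ (Φ h s)
      rw [hΦ, hΦ, ← hg]; rfl
    · exact (Algebra.IsIntegral.isIntegral (R := Oℓ) h).map (Pi.evalAlgHom Oℓ _ s |>.comp Φ)
  · have : e.symm x = e.symm y := WithConv.ext (AlgHom.ext fun h' => h ⟨_, h', rfl⟩)
    exact e.symm.injective this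
  · rintro ⟨_, h, rfl⟩
    refine ⟨Algebra.TensorProduct.map Φ.rangeRestrict Φ.rangeRestrict (Coalgebra.comul h),
      funext fun p => ?_⟩
    have hsum : e.symm (p.1 + p.2) = e.symm p.1 * e.symm p.2 := by
      rw [Equiv.symm_apply_eq, hmul, Equiv.apply_symm_apply, Equiv.apply_symm_apply]
    show _ = Φ h (p.1 + p.2)
    rw [hΦ, hsum, AlgHom.convMul_apply]
    generalize Coalgebra.comul (R := Oℓ) h = w
    induction w using TensorProduct.induction_on with
    | zero => simp
    | tmul a b => simp [hΦ]
    | add a b ha hb => simp only [map_add, Pi.add_apply, RingHom.coe_coe, AlgHom.toRingHom_eq_coe] at ha hb ⊢; rw [ha, hb]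
  · rintro ⟨_, h, rfl⟩
    refine ⟨HopfAlgebra.antipodeAlgHom Oℓ H h, funext fun s => ?_⟩
    let f := e.symm s
    let g : WithConv (H →ₐ[Oℓ] Qbar) :=
      WithConv.toConv (f.ofConv.comp (HopfAlgebra.antipodeAlgHom Oℓ H))
    have hgf : g * f = 1 := by
      have := congrArg (fun u : WithConv (H →ₐ[Oℓ] H) => WithConv.toConv (f.ofConv.comp u.ofConv))
        (AlgHom.antipode_id_cancel (R := Oℓ) (A := H))
      rw [AlgHom.comp_convMul_distrib] at this
      refine this.trans (WithConv.ext (AlgHom.ext fun a => ?_))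
      simp [AlgHom.convOne_def]
    have hneg : e.symm (-s) = g := by
      rw [Equiv.symm_apply_eq, ← add_eq_zero_iff_neg_eq']
      rw [show s = e f from (e.apply_symm_apply s).symm, ← hmul, hgf, he1]
    show Φ (HopfAlgebra.antipodeAlgHom Oℓ H h) s = Φ h (-s)
    rw [hΦ, hΦ, hneg]; rfl

end Quotient

end FLTAgent.RTCond.Flat
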