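import Fermat.Agent.RT.Cond.StrictOrd

/-!
# Strict ordinary deformations are a deformation condition
-/

set_option autoImplicit false
set_option linter.unusedSectionVars false

noncomputable section

open IsLocalRing

namespace FLTAgent.RTCond

open FLTAgent.Deformation FLTAgent.GalRep

variable {𝒪 : Type} [CommRing 𝒪] [IsLocalRing 𝒪]
variable {A : Type} [CommRing A] [IsLocalRing A] [Algebra 𝒪 A]
variable {p : ℕ} [Fact p.Prime] (ψ : ℤ_[p] →+* 𝒪)

theorem eq_detChar_mul_iff [IsNoetherianRing A] (hp : (p : 𝒪) ∈ maximalIdeal 𝒪)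
    (hA : IsCoeff 𝒪 A) (σ : Gal) (x z : A) :
    (∀ (n a : ℕ), (∀ μ : AlgebraicClosure ℚ, μ ^ p ^ n = 1 → σ μ = μ ^ a) →
      x - (a : A) * z ∈ Ideal.span {((p ^ n : ℕ) : A)}) ↔
      x = algebraMap 𝒪 A (detChar ψ σ) * z := by
  have hpA := natCast_mem_maximalIdeal hp hA
  constructor
  · intro h
    rw [← sub_eq_zero, ← Ideal.mem_bot,
      ← Ideal.iInf_pow_eq_bot_of_isLocalRing (maximalIdeal A) (maximalIdeal.isMaximal A).ne_top,
      Submodule.mem_iInf]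
    intro n
    have h1 := h n _ fun μ hμ => cyclo_spec p σ hμ
    have h2 := algebraMap_padic_sub_natCast_mem (A := A) ψ (x := (cyclo p σ : ℤ_[p]))
      (n := n) (ZMod.natCast_zmod_val _).symm
    have hle : Ideal.span {((p ^ n : ℕ) : A)} ≤ maximalIdeal A ^ n := by
      rw [Ideal.span_singleton_le_iff_mem, Nat.cast_pow]
      exact Ideal.pow_mem_pow hpA n
    have := hle (sub_mem h1 (Ideal.mul_mem_right z _ h2))
    convert this using 1
    rw [detChar]
    ring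
  · rintro rfl n a ha
    obtain ⟨ζ, hζ⟩ := HasEnoughRootsOfUnity.exists_primitiveRoot (AlgebraicClosure ℚ) (p ^ n)
    rw [← sub_mul]
    exact Ideal.mul_mem_right _ _ (algebraMap_padic_sub_natCast_mem ψ
      (toZModPow_cyclo_eq_natCast p σ hζ (ha ζ hζ.pow_eq_one)))

theorem inertia_subset_decomposition (P : ValuationSubring (AlgebraicClosure ℚ)) :
    (P.inertiaSubgroupIn ℚ : Set Gal) ⊆ (P.decompositionSubgroup ℚ : Set Gal) := by
  rintro _ ⟨g, _, rfl⟩
  exact g.2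

theorem mem_span_basis_zero_iff {V : Type} [AddCommGroup V] [Module A V]
    (b : Module.Basis (Fin 2) A V) (v : V) : v ∈ A ∙ b 0 ↔ b.repr v 1 = 0 := by
  constructor
  · intro h
    obtain ⟨a, rfl⟩ := Submodule.mem_span_singleton.mp h
    simp
  · intro h
    refine Submodule.mem_span_singleton.mpr ⟨b.repr v 0, b.repr.injective (Finsupp.ext fun i => ?_)⟩
    fin_cases i
    · simp
    · simp [h]

/-- The strict ordinarity at one place, in a suitable basis. -/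
theorem exists_shape_iff [IsNoetherianRing A] (hp : (p : 𝒪) ∈ maximalIdeal 𝒪) (hA : IsCoeff 𝒪 A)
    (ρ : GaloisRepAdic A) (P : ValuationSubring (AlgebraicClosure ℚ)) :
    (∃ L : Submodule A ρ.V,
      (∃ b : Module.Basis (Fin 2) A ρ.V, L = A ∙ b 0) ∧
      (∀ σ ∈ P.decompositionSubgroup ℚ, ∀ v ∈ L, ρ.ρ σ v ∈ L) ∧
      (∀ σ ∈ P.inertiaSubgroupIn ℚ, ∀ v : ρ.V, ρ.ρ σ v - v ∈ L) ∧
      (∀ σ ∈ P.decompositionSubgroup ℚ, ∃ x z : A,
        (∀ w ∈ L, ρ.ρ σ w = x • w) ∧ (∀ v : ρ.V, ρ.ρ σ v - z • v ∈ L) ∧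
        ∀ (n a : ℕ), (∀ μ : AlgebraicClosure ℚ, μ ^ p ^ n = 1 → σ μ = μ ^ a) →
          x - (a : A) * z ∈ Ideal.span {((p ^ n : ℕ) : A)})) ↔
    ∃ b : Module.Basis (Fin 2) A ρ.V, StrictShape ψ (P.decompositionSubgroup ℚ : Set Gal)
      (P.inertiaSubgroupIn ℚ : Set Gal) (repMatrix ρ.ρ b) := by
  have hN : ∀ (b : Module.Basis (Fin 2) A ρ.V) σ i j,
      repMatrix ρ.ρ b σ i j = b.repr (ρ.ρ σ (b j)) i := fun b σ i j => by
    rw [repMatrix_apply, LinearMap.toMatrix_apply]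
  constructor
  · rintro ⟨L, ⟨b, rfl⟩, hD, hI, hX⟩
    have hb0 : b 0 ∈ A ∙ b 0 := Submodule.mem_span_singleton_self _
    refine ⟨b, fun σ hσ => ⟨?_, ?_⟩, fun σ hσ => ⟨?_, ?_⟩⟩
    · rw [hN]
      exact (mem_span_basis_zero_iff b _).mp (hD σ hσ _ hb0)
    · obtain ⟨x, z, hx, hz, hxz⟩ := hX σ hσ
      have h11 : b.repr (ρ.ρ σ (b 1)) 1 = z := by
        have := (mem_span_basis_zero_iff b _).mp (hz (b 1))
        simpa [sub_eq_zero] using this
      have h00 : b.repr (ρ.ρ σ (b 0)) 0 = x := by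
        rw [hx _ hb0]; simp
      rw [hN, hN, h11, h00]
      exact (eq_detChar_mul_iff ψ hp hA σ x z).mp hxz
    · rw [hN]
      exact (mem_span_basis_zero_iff b _).mp (hD σ (inertia_subset_decomposition P hσ) _ hb0)
    · rw [hN]
      have := (mem_span_basis_zero_iff b _).mp (hI σ hσ (b 1))
      simpa [sub_eq_zero] using this
  · rintro ⟨b, hD, hI⟩
    have hcol : ∀ σ ∈ P.decompositionSubgroup ℚ, ρ.ρ σ (b 0) = repMatrix ρ.ρ b σ 0 0 • b 0 := by
      intro σ hσ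
      refine b.repr.injective (Finsupp.ext fun i => ?_)
      fin_cases i
      · simp [hN]
      · simpa [hN] using (hD σ hσ).1
    have hcong : ∀ σ ∈ P.decompositionSubgroup ℚ, ∀ v : ρ.V,
        ρ.ρ σ v - repMatrix ρ.ρ b σ 1 1 • v ∈ A ∙ b 0 := by
      intro σ hσ v
      rw [mem_span_basis_zero_iff]
      have h1 := congrFun (repMatrix_mulVec ρ.ρ b σ v) 1
      simp only [Matrix.mulVec, dotProduct, Fin.sum_univ_two, Module.Basis.equivFun_apply,
        (hD σ hσ).1, zero_mul, zero_add] at h1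
      simp [← h1]
    refine ⟨A ∙ b 0, ⟨b, rfl⟩, fun σ hσ v hv => ?_, fun σ hσ v => ?_, fun σ hσ => ?_⟩
    · obtain ⟨a, rfl⟩ := Submodule.mem_span_singleton.mp hv
      rw [map_smul, hcol σ hσ, smul_smul]
      exact Submodule.smul_mem _ _ (Submodule.mem_span_singleton_self _)
    · have := hcong σ (inertia_subset_decomposition P hσ) v
      rwa [(hI σ hσ).2, one_smul] at this
    · refine ⟨repMatrix ρ.ρ b σ 0 0, repMatrix ρ.ρ b σ 1 1, fun w hw => ?_, hcong σ hσ,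
        (eq_detChar_mul_iff ψ hp hA σ _ _).mpr (hD σ hσ).2⟩
      obtain ⟨a, rfl⟩ := Submodule.mem_span_singleton.mp hw
      rw [map_smul, hcol σ hσ, smul_comm]

/-- The equations of strict ordinarity with cyclotomic determinant. -/
def StrictDetEq (piv : ∀ P : ValuationSubring (AlgebraicClosure ℚ), P.LiesOverPrime p → Pivot ψ) :
    ∀ ⦃A : Type⦄ [CommRing A] [Algebra 𝒪 A], (Gal →* Mat A) → Prop :=
  fun _A _ _ N => DetEq (detChar ψ) N ∧
    ∀ P : {P : ValuationSubring (AlgebraicClosure ℚ) // P.LiesOverPrime p},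
      StrictEq (piv P.1 P.2) (P.1.decompositionSubgroup ℚ : Set Gal)
        (P.1.inertiaSubgroupIn ℚ : Set Gal) N

theorem exists_pivot (hp2 : p ≠ 2) :
    ∃ piv : ∀ P : ValuationSubring (AlgebraicClosure ℚ), P.LiesOverPrime p → Pivot ψ,
      ∀ P hP, (piv P hP).σ₀ ∈ P.inertiaSubgroupIn ℚ := by
  choose σ hσ hu using fun (P : ValuationSubring (AlgebraicClosure ℚ)) (hP : P.LiesOverPrime p) =>
    exists_inertia_cyclo_ne_one hp2 hP
  refine ⟨fun P hP => ⟨σ P hP, ψ ↑((hu P hP).unit⁻¹), ?_⟩, hσ⟩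
  rw [detChar, ← map_one ψ, ← map_sub, ← map_mul, (hu P hP).val_inv_mul, map_one]

theorem strictOrdinary_iff [IsNoetherianRing A] (hp : (p : 𝒪) ∈ maximalIdeal 𝒪) (hA : IsCoeff 𝒪 A)
    {piv : ∀ P : ValuationSubring (AlgebraicClosure ℚ), P.LiesOverPrime p → Pivot ψ}
    (hpiv : ∀ P hP, (piv P hP).σ₀ ∈ P.inertiaSubgroupIn ℚ) (ρ : GaloisRepAdic A) :
    ρ.DetIsCyclotomic p ∧ ρ.IsStrictOrdinaryAt p ↔ StrictDetEq ψ piv (stdMatrix ρ) := by
  constructor
  · rintro ⟨hdet, -, hS⟩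
    refine ⟨(detIsCyclotomic_iff ψ hp hA ρ).mp hdet, fun P => ?_⟩
    obtain ⟨b, hb⟩ := (exists_shape_iff ψ hp hA ρ P.1).mp (hS P.1 P.2)
    exact ((isMatEq_strictEq _ _ _).iff_of_isEquiv ⟨GaloisRepAdic.Equiv.refl ρ⟩ b (stdBasis ρ)).mp
      (strictEq_of_shape _ (inertia_subset_decomposition P.1) (hpiv P.1 P.2) _ hb)
  · rintro ⟨hdet, hS⟩
    refine ⟨(detIsCyclotomic_iff ψ hp hA ρ).mpr hdet, natCast_mem_maximalIdeal hp hA,
      fun P hP => (exists_shape_iff ψ hp hA ρ P).mpr ?_⟩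
    obtain ⟨g, hg⟩ := exists_shape_of_strictEq (piv P hP) (inertia_subset_decomposition P)
      (stdMatrix ρ) hdet (hS ⟨P, hP⟩)
    obtain ⟨b, hb⟩ := exists_basis_conj ρ g
    exact ⟨b, hb ▸ hg⟩
where
  exists_basis_conj (ρ : GaloisRepAdic A) (g : (Mat A)ˣ) :
      ∃ b : Module.Basis (Fin 2) A ρ.V, repMatrix ρ.ρ b = conjRep g (stdMatrix ρ) := by
    obtain ⟨e⟩ := (isEquiv_matRep_iff (matCont_repMatrix ρ (stdBasis ρ))
      ((matCont_repMatrix ρ (stdBasis ρ)).conj g)).mpr ⟨g, rfl⟩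
    obtain ⟨e'⟩ := isEquiv_matRep ρ (stdBasis ρ)
    let f : ρ.V ≃ₗ[A] (Fin 2 → A) := (e'.trans e).toLinearEquiv
    have hf : ∀ σ x, f (ρ.ρ σ x) = Matrix.mulVec (conjRep g (stdMatrix ρ) σ) (f x) :=
      (e'.trans e).map_apply
    refine ⟨Module.Basis.ofEquivFun f, MonoidHom.ext fun σ => ?_⟩
    ext i j
    rw [repMatrix_apply, LinearMap.toMatrix_apply, Module.Basis.ofEquivFun_repr_apply, hf,
      Module.Basis.coe_ofEquivFun, LinearEquiv.apply_symm_apply, Matrix.mulVec_single_one,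
      Matrix.col_apply]

variable (𝒪) in
/-- Strict ordinarity at `p` with cyclotomic determinant. -/
theorem isDeformationCondition_strictOrdinaryAt [Finite (ResidueField 𝒪)]
    [IsAdicComplete (maximalIdeal 𝒪) 𝒪] (hp2 : p ≠ 2) (hp : (p : 𝒪) ∈ maximalIdeal 𝒪) :
    GaloisRep.IsDeformationCondition 𝒪
      fun _A _ _ _ ρ => ρ.DetIsCyclotomic p ∧ ρ.IsStrictOrdinaryAt p := by
  obtain ⟨ψ⟩ := exists_padicHom p 𝒪 hp
  obtain ⟨piv, hpiv⟩ := exists_pivot ψ hp2
  exact isDeformationCondition_of_matEq _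
    ((isMatEq_detEq _).and (IsMatEq.forall fun P => isMatEq_strictEq _ _ _))
    fun _A _ _ _ _ _ hA ρ => strictOrdinary_iff ψ hp hA hpiv ρ

variable (𝒪) in
/-- The strict ordinary condition with unipotent inertia at `T`. -/
theorem isDeformationCondition_strictOrdinary [Finite (ResidueField 𝒪)]
    [IsAdicComplete (maximalIdeal 𝒪) 𝒪] (hp2 : p ≠ 2) (hp : (p : 𝒪) ∈ maximalIdeal 𝒪)
    (S T : Finset ℕ) :
    GaloisRep.IsDeformationCondition 𝒪 fun _A _ _ _ ρ =>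
      GaloisRep.strictOrdinaryCondition 𝒪 p S ρ ∧
        ∀ q ∈ T, q.Prime → q ≠ p → ρ.IsUnipotentOnInertiaAt q :=
  isDeformationCondition_congr
    (isDeformationCondition_and (isDeformationCondition_strictOrdinaryAt 𝒪 hp2 hp)
      (isDeformationCondition_tame p S T))
    fun _A _ _ _ ρ => by
      simp only [GaloisRep.strictOrdinaryCondition, tameCondition]
      tauto

end FLTAgent.RTCond
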