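import Fermat.Agent.Deformation.Export

/-!
# Deformation conditions cut out by equations in the matrix entries

A predicate of matrix representations which is invariant under conjugation, pushes forward along
algebra maps and is detected by any jointly injective family of algebra maps gives a deformation
condition.  Conjunctions of deformation conditions are deformation conditions.
-/

set_option autoImplicit false
set_option linter.unusedSectionVars false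

noncomputable section

open IsLocalRing

namespace FLTAgent.RTCond

open FLTAgent.Deformation

section Family

variable (𝒪 : Type) [CommRing 𝒪]

/-- A predicate given by equations in the entries of a matrix representation. -/
structure IsMatEq (Φ : ∀ ⦃A : Type⦄ [CommRing A] [Algebra 𝒪 A], (Gal →* Mat A) → Prop) :
    Prop where
  conj : ∀ ⦃A : Type⦄ [CommRing A] [Algebra 𝒪 A] (g : (Mat A)ˣ) (N : Gal →* Mat A),
    Φ N → Φ (conjRep g N)
  map : ∀ ⦃A B : Type⦄ [CommRing A] [Algebra 𝒪 A] [CommRing B] [Algebra 𝒪 B] (f : A →ₐ[𝒪] B)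
    (N : Gal →* Mat A), Φ N → Φ (mapRep (f : A →+* B) N)
  detect : ∀ ⦃A : Type⦄ [CommRing A] [Algebra 𝒪 A] (N : Gal →* Mat A) {ι : Type} (B : ι → Type)
    [∀ i, CommRing (B i)] [∀ i, Algebra 𝒪 (B i)] (f : ∀ i, A →ₐ[𝒪] B i),
    (∀ x, (∀ i, f i x = 0) → x = 0) → (∀ i, Φ (mapRep (f i : A →+* B i) N)) → Φ N

variable {𝒪}

/-- The equations "matrix valued natural expression `= 0`". -/
theorem isMatEq_of_expr {ι : Type}
    (F : ι → ∀ ⦃A : Type⦄ [CommRing A] [Algebra 𝒪 A], (Gal →* Mat A) → Mat A)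
    (hconj : ∀ (i : ι) ⦃A : Type⦄ [CommRing A] [Algebra 𝒪 A] (g : (Mat A)ˣ) (N : Gal →* Mat A),
      F i (conjRep g N) = g * F i N * ↑g⁻¹)
    (hmap : ∀ (i : ι) ⦃A B : Type⦄ [CommRing A] [Algebra 𝒪 A] [CommRing B] [Algebra 𝒪 B]
      (f : A →ₐ[𝒪] B) (N : Gal →* Mat A), F i (mapRep (f : A →+* B) N) = (F i N).map f) :
    IsMatEq 𝒪 fun _A _ _ N => ∀ i, F i N = 0 where
  conj _ _ _ g N h i := by rw [hconj, h, mul_zero, zero_mul]
  map _ _ _ _ _ _ f N h i := by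
    rw [hmap, h]
    ext a b
    simp
  detect A _ _ N _ B _ _ f hf h i := by
    ext a b
    refine hf _ fun j => ?_
    have := congrFun (congrFun (h j i) a) b
    rwa [hmap] at this

variable {Φ Ψ : ∀ ⦃A : Type⦄ [CommRing A] [Algebra 𝒪 A], (Gal →* Mat A) → Prop}

theorem IsMatEq.and (hΦ : IsMatEq 𝒪 Φ) (hΨ : IsMatEq 𝒪 Ψ) :
    IsMatEq 𝒪 fun _A _ _ N => Φ N ∧ Ψ N where
  conj _ _ _ g N h := ⟨hΦ.conj g N h.1, hΨ.conj g N h.2⟩
  map _ _ _ _ _ _ f N h := ⟨hΦ.map f N h.1, hΨ.map f N h.2⟩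
  detect _ _ _ N _ B _ _ f hf h :=
    ⟨hΦ.detect N B f hf fun i => (h i).1, hΨ.detect N B f hf fun i => (h i).2⟩

theorem IsMatEq.forall {ι : Sort*}
    {Φ : ι → ∀ ⦃A : Type⦄ [CommRing A] [Algebra 𝒪 A], (Gal →* Mat A) → Prop}
    (h : ∀ i, IsMatEq 𝒪 (Φ i)) : IsMatEq 𝒪 fun _A _ _ N => ∀ i, Φ i N where
  conj _ _ _ g N hN i := (h i).conj g N (hN i)
  map _ _ _ _ _ _ f N hN i := (h i).map f N (hN i)
  detect _ _ _ N _ B _ _ f hf hN i := (h i).detect N B f hf fun j => hN j i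

theorem IsMatEq.congr (hΦ : IsMatEq 𝒪 Φ)
    (h : ∀ ⦃A : Type⦄ [CommRing A] [Algebra 𝒪 A] (N : Gal →* Mat A), Φ N ↔ Ψ N) :
    IsMatEq 𝒪 Ψ where
  conj _ _ _ g N hN := (h _).mp (hΦ.conj g N ((h N).mpr hN))
  map _ _ _ _ _ _ f N hN := (h _).mp (hΦ.map f N ((h N).mpr hN))
  detect _ _ _ N _ B _ _ f hf hN := (h _).mp (hΦ.detect N B f hf fun i => (h _).mpr (hN i))

end Family

variable {𝒪 : Type} [CommRing 𝒪] [IsLocalRing 𝒪]
variable {A B : Type} [CommRing A] [IsLocalRing A] [Algebra 𝒪 A] [CommRing B] [IsLocalRing B]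
  [Algebra 𝒪 B]

/-- The matrices of a representation in the standard basis. -/
abbrev stdMatrix (ρ : GaloisRepAdic A) : Gal →* Mat A := repMatrix ρ.ρ (stdBasis ρ)

theorem IsMatEq.iff_of_isEquiv
    {Φ : ∀ ⦃A : Type⦄ [CommRing A] [Algebra 𝒪 A], (Gal →* Mat A) → Prop} (hΦ : IsMatEq 𝒪 Φ)
    {ρ ρ' : GaloisRepAdic A} (h : ρ.IsEquiv ρ') (b : Module.Basis (Fin 2) A ρ.V)
    (b' : Module.Basis (Fin 2) A ρ'.V) :
    Φ (repMatrix ρ.ρ b) ↔ Φ (repMatrix ρ'.ρ b') := by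
  obtain ⟨e⟩ := h
  obtain ⟨g, hg⟩ := exists_conj_of_equiv b b' e.toLinearEquiv e.map_apply
  obtain ⟨g', hg'⟩ := exists_conj_of_equiv b' b e.symm.toLinearEquiv e.symm.map_apply
  exact ⟨fun h => hg ▸ hΦ.conj g _ h, fun h => hg' ▸ hΦ.conj g' _ h⟩

theorem IsMatEq.iff_baseChangeAlong
    {Φ : ∀ ⦃A : Type⦄ [CommRing A] [Algebra 𝒪 A], (Gal →* Mat A) → Prop} (hΦ : IsMatEq 𝒪 Φ)
    (f : A →ₐ[𝒪] B) (hf : IsLocalHom (f : A →+* B)) (ρ : GaloisRepAdic A) :
    Φ (stdMatrix (ρ.baseChangeAlong (f : A →+* B) hf)) ↔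
      Φ (mapRep (f : A →+* B) (stdMatrix ρ)) := by
  have h := hΦ.iff_of_isEquiv
    (baseChangeAlong_isEquiv_matRep (f : A →+* B) hf (isEquiv_matRep ρ (stdBasis ρ)))
    (stdBasis _) (Pi.basisFun B (Fin 2))
  rwa [repMatrix_matRep] at h

/-- An element killed in all the Artinian quotients of a complete ring is zero. -/
theorem eq_zero_of_forall_quotient [IsNoetherianRing A] (x : A)
    (h : ∀ n : ℕ, Ideal.Quotient.mk (maximalIdeal A ^ (n + 1)) x = 0) : x = 0 := by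
  rw [← Ideal.mem_bot,
    ← Ideal.iInf_pow_eq_bot_of_isLocalRing (maximalIdeal A) (maximalIdeal.isMaximal A).ne_top,
    Submodule.mem_iInf]
  intro n
  exact Ideal.pow_le_pow_right n.le_succ (Ideal.Quotient.eq_zero_iff_mem.mp (h n))

/-- A condition which is, on complete Noetherian coefficient algebras, given by equations in the
matrices is a deformation condition. -/
theorem isDeformationCondition_of_matEq [Finite (ResidueField 𝒪)]
    {𝒟 : ∀ ⦃A : Type⦄ [CommRing A] [IsLocalRing A] [Algebra 𝒪 A], GaloisRepAdic A → Prop}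
    (Φ : ∀ ⦃A : Type⦄ [CommRing A] [Algebra 𝒪 A], (Gal →* Mat A) → Prop) (hΦ : IsMatEq 𝒪 Φ)
    (h : ∀ ⦃A : Type⦄ [CommRing A] [IsLocalRing A] [IsNoetherianRing A]
      [IsAdicComplete (maximalIdeal A) A] [Algebra 𝒪 A],
      IsCoeff 𝒪 A → ∀ ρ : GaloisRepAdic A, 𝒟 ρ ↔ Φ (stdMatrix ρ)) :
    GaloisRep.IsDeformationCondition 𝒪 𝒟 := by
  have key : ∀ ⦃A : Type⦄ [CommRing A] [IsLocalRing A] [Algebra 𝒪 A],
      GaloisRep.IsArtinianTestAlgebra 𝒪 A → ∀ ρ : GaloisRepAdic A, 𝒟 ρ ↔ Φ (stdMatrix ρ) := by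
    intro A _ _ _ hA ρ
    have := hA.isArtinian
    obtain ⟨n, hn⟩ := hA.exists_pow_eq_bot
    have : IsAdicComplete (maximalIdeal A) A := isAdicComplete_of_pow_eq_bot hn
    exact h hA.isCoeff ρ
  refine ⟨fun A _ _ _ hA ρ ρ' he hρ => (key hA ρ').mpr
    ((hΦ.iff_of_isEquiv he (stdBasis ρ) (stdBasis ρ')).mp ((key hA ρ).mp hρ)), ?_, ?_, ?_, ?_⟩
  · intro A B _ _ _ _ _ _ hA hB φ hφ ρ hρ
    exact (key hB _).mpr ((hΦ.iff_baseChangeAlong φ hφ ρ).mpr (hΦ.map φ _ ((key hA ρ).mp hρ)))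
  · intro A B _ _ _ _ _ _ hA hB φ hφ hinj ρ hρ
    refine (key hA ρ).mpr (hΦ.detect _ (fun _ : Unit => B) (fun _ => φ)
      (fun x hx => hinj (by rw [hx (), map_zero])) fun _ => ?_)
    exact (hΦ.iff_baseChangeAlong φ hφ ρ).mp ((key hB _).mp hρ)
  · intro A B C P _ _ _ _ _ _ _ _ _ _ _ _ hA hB hC hP f g pA pB hpA hpB _ hinj _ ρ hρA hρB
    refine (key hP ρ).mpr ?_
    let R : Bool → Type := fun b => cond b A B
    let _ : ∀ b, CommRing (R b) := fun b => match b with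
      | true => (inferInstance : CommRing A)
      | false => (inferInstance : CommRing B)
    let _ : ∀ b, Algebra 𝒪 (R b) := fun b => match b with
      | true => (inferInstance : Algebra 𝒪 A)
      | false => (inferInstance : Algebra 𝒪 B)
    let q : ∀ b, P →ₐ[𝒪] R b := fun b => match b with
      | true => pA
      | false => pB
    refine hΦ.detect _ R q (fun x hx => hinj ?_) fun b => ?_
    · show (pA x, pB x) = (pA 0, pB 0)
      rw [map_zero, map_zero]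
      exact Prod.ext (hx true) (hx false)
    · cases b with
      | true => exact (hΦ.iff_baseChangeAlong pA hpA ρ).mp ((key hA _).mp hρA)
      | false => exact (hΦ.iff_baseChangeAlong pB hpB ρ).mp ((key hB _).mp hρB)
  · intro A _ _ _ _ _ hloc hres ρ
    have hA : IsCoeff 𝒪 A := ⟨hloc, hres⟩
    have := hA.finite_residueField
    constructor
    · intro hρ B _ _ _ hB q hq _
      exact (key hB _).mpr ((hΦ.iff_baseChangeAlong q hq ρ).mpr (hΦ.map q _ ((h hA ρ).mp hρ)))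
    · intro hall
      have hloc' : ∀ n : ℕ, IsLocalRing (A ⧸ maximalIdeal A ^ (n + 1)) := fun n =>
        isLocalRing_quotient fun hh => (maximalIdeal.isMaximal A).ne_top
          (top_le_iff.mp (hh ▸ Ideal.pow_le_self n.succ_ne_zero))
      refine (h hA ρ).mpr (hΦ.detect _ (fun n => A ⧸ maximalIdeal A ^ (n + 1))
        (fun n => Ideal.Quotient.mkₐ 𝒪 _) (fun x hx => eq_zero_of_forall_quotient x hx) fun n => ?_)
      have := hloc' n
      have : Finite (A ⧸ maximalIdeal A ^ (n + 1)) :=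
        IsLocalRing.finite_quotient_iff.mpr ⟨n + 1, le_rfl⟩
      have hB : GaloisRep.IsArtinianTestAlgebra 𝒪 (A ⧸ maximalIdeal A ^ (n + 1)) :=
        (hA.quotient _).isArtinianTestAlgebra
      have hq : IsLocalHom ((Ideal.Quotient.mkₐ 𝒪 (maximalIdeal A ^ (n + 1)) :
          A →ₐ[𝒪] _) : A →+* A ⧸ maximalIdeal A ^ (n + 1)) :=
        hA.isLocalHom_algHom hB.isCoeff _
      exact (hΦ.iff_baseChangeAlong _ hq ρ).mp
        ((key hB _).mp (hall hB _ hq Ideal.Quotient.mk_surjective))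

/-- A conjunction of deformation conditions is a deformation condition. -/
theorem isDeformationCondition_and
    {𝒟 ℰ : ∀ ⦃A : Type⦄ [CommRing A] [IsLocalRing A] [Algebra 𝒪 A], GaloisRepAdic A → Prop}
    (h𝒟 : GaloisRep.IsDeformationCondition 𝒪 𝒟) (hℰ : GaloisRep.IsDeformationCondition 𝒪 ℰ) :
    GaloisRep.IsDeformationCondition 𝒪 fun _A _ _ _ ρ => 𝒟 ρ ∧ ℰ ρ where
  of_isEquiv _ _ _ _ hA _ _ he h := ⟨h𝒟.of_isEquiv hA he h.1, hℰ.of_isEquiv hA he h.2⟩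
  baseChangeAlong _ _ _ _ _ _ _ _ hA hB φ hφ _ h :=
    ⟨h𝒟.baseChangeAlong hA hB φ hφ h.1, hℰ.baseChangeAlong hA hB φ hφ h.2⟩
  of_baseChangeAlong_injective _ _ _ _ _ _ _ _ hA hB φ hφ hi _ h :=
    ⟨h𝒟.of_baseChangeAlong_injective hA hB φ hφ hi h.1,
      hℰ.of_baseChangeAlong_injective hA hB φ hφ hi h.2⟩
  of_fibreProduct _ _ _ _ _ _ _ _ _ _ _ _ _ _ _ _ hA hB hC hP f g pA pB hpA hpB hc hi hs _ h h' :=
    ⟨h𝒟.of_fibreProduct hA hB hC hP f g pA pB hpA hpB hc hi hs h.1 h'.1,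
      hℰ.of_fibreProduct hA hB hC hP f g pA pB hpA hpB hc hi hs h.2 h'.2⟩
  iff_forall_surjective _ _ _ _ _ _ hl hr ρ :=
    ⟨fun h _ _ _ _ hB q hq hs => ⟨(h𝒟.iff_forall_surjective hl hr ρ).mp h.1 hB q hq hs,
        (hℰ.iff_forall_surjective hl hr ρ).mp h.2 hB q hq hs⟩,
      fun h => ⟨(h𝒟.iff_forall_surjective hl hr ρ).mpr fun _ _ _ _ hB q hq hs => (h hB q hq hs).1,
        (hℰ.iff_forall_surjective hl hr ρ).mpr fun _ _ _ _ hB q hq hs => (h hB q hq hs).2⟩⟩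

theorem isDeformationCondition_congr
    {𝒟 ℰ : ∀ ⦃A : Type⦄ [CommRing A] [IsLocalRing A] [Algebra 𝒪 A], GaloisRepAdic A → Prop}
    (h𝒟 : GaloisRep.IsDeformationCondition 𝒪 𝒟)
    (h : ∀ ⦃A : Type⦄ [CommRing A] [IsLocalRing A] [Algebra 𝒪 A] (ρ : GaloisRepAdic A),
      𝒟 ρ ↔ ℰ ρ) : GaloisRep.IsDeformationCondition 𝒪 ℰ := by
  have he : 𝒟 = ℰ := by
    funext A _ _ _ ρ
    exact propext (h ρ)
  exact he ▸ h𝒟

end FLTAgent.RTCond
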