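import Fermat.Agent.TW.ClassCount
import Fermat.Agent.RT.Cond.MatEq
import Fermat.Prelude.Def_GaloisRep_LocalConditions

/-!
# The tangent space of a condition unramified outside a finite set is finite

The restriction of a lift to a field `K ∋ ζ_p` trivialising `ρbar` is a homomorphism to trace-free
unipotents unramified outside finitely many places; by Kummer theory there are finitely many.
-/

set_option autoImplicit false
set_option linter.unusedSectionVars false

noncomputable section

open IsLocalRing IsDedekindDomain NumberField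

namespace FLTAgent.RTCond

open FLTAgent.Deformation FLTAgent.TW

variable {p : ℕ} [hpf : Fact p.Prime]

/-- The trivial setting on a number field containing `ζ`. -/
def trivialKField (K : IntermediateField ℚ Qb) [FiniteDimensional ℚ K] (ζ : K)
    (hζ : IsPrimitiveRoot ζ p) : KField p where
  K := K
  ζ := ζ
  hζ := hζ
  H := K.fixingSubgroup
  fix_le := le_rfl
  stable g hg x hx := by rwa [apply_eq_of_mem_fixing hg hx]
  C := Unit
  π := 1
  π_surj _ := ⟨1, rfl⟩
  π_ker h := iff_of_true rfl h.2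

/-- The places of `K` over a finite set of primes form a finite set. -/
theorem finite_placesOver (K : IntermediateField ℚ Qb) [FiniteDimensional ℚ K] (S : Finset ℕ)
    (hS : ∀ q ∈ S, q ≠ 0) :
    {v : Ext.Place K | ∃ q ∈ S, (q : 𝓞 K) ∈ v.asIdeal}.Finite := by
  have h : {v : Ext.Place K | ∃ q ∈ S, (q : 𝓞 K) ∈ v.asIdeal} =
      ⋃ q ∈ (S : Set ℕ), {v : Ext.Place K | v.asIdeal ∣ Ideal.span {(q : 𝓞 K)}} := by
    ext v; simp [Ideal.dvd_iff_le, Ideal.span_singleton_le_iff_mem]
  rw [h]
  exact S.finite_toSet.biUnion fun q hq => Ideal.finite_factors (by simp [hS q hq])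

/-- Finitely many continuous homomorphisms to `ℤ/p` are unramified outside a finite set. -/
theorem finite_homs_of_kfield (X : KField p) (S : Finset ℕ) :
    {f : X.K.fixingSubgroup → ZMod p | (∀ σ τ, f (σ * τ) = f σ + f τ) ∧ IsLevel f ∧
      ∀ (A : ValuationSubring Qb) (l : ℕ), l.Prime → A.LiesOverPrime l → l ∉ S →
        ∀ σ : X.K.fixingSubgroup, (σ : Γ) ∈ A.inertiaSubgroupIn ℚ → f σ = 0}.Finite := by
  classical
  let S' : Finset ℕ := insert p (S.filter (· ≠ 0))
  have hS' : ∀ q ∈ S', q ≠ 0 := by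
    intro q hq
    rcases Finset.mem_insert.mp hq with rfl | hq
    · exact hpf.out.ne_zero
    · exact (Finset.mem_filter.mp hq).2
  let T := (finite_placesOver X.K S' hS').toFinset
  have hfin : Finite (X.XT (T : Set (Ext.Place X.K))) := KField.finite_XT T
  refine (Set.finite_range fun (a : X.XT (T : Set (Ext.Place X.K))) (σ : X.K.fixingSubgroup) =>
    X.ev σ a.1).subset ?_
  rintro f ⟨hadd, hlev, hunr⟩
  obtain ⟨x, hx⟩ := exists_kum X.hζ f hadd hlev
  have hmem : X.cls x ∈ X.XT (T : Set (Ext.Place X.K)) := X.cls_mem_XT.mpr fun v hv => by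
    obtain ⟨l, hl, hlv⟩ := exists_prime_mem v
    obtain ⟨A, hA, rfl⟩ := exists_placeIn X.K v hl hlv
    refine dvd_ord_of_kum_eq_zero X.hζ fun g hg => ?_
    rw [hx g]
    refine hunr A l hl hA (fun hlS => hv ?_) g hg
    exact (finite_placesOver X.K S' hS').mem_toFinset.mpr
      ⟨l, Finset.mem_insert_of_mem (Finset.mem_filter.mpr ⟨hlS, hl.ne_zero⟩), natCast_mem_placeIn⟩
  exact ⟨⟨_, hmem⟩, funext fun σ => (X.ev_cls σ x).trans (hx σ)⟩

/-- Finitely many continuous homomorphisms to `ℤ/p` are unramified outside a finite set. -/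
theorem finite_homs_unramified (K : IntermediateField ℚ Qb) [FiniteDimensional ℚ K] (ζ : K)
    (hζ : IsPrimitiveRoot ζ p) (S : Finset ℕ) :
    {f : K.fixingSubgroup → ZMod p | (∀ σ τ, f (σ * τ) = f σ + f τ) ∧ IsLevel f ∧
      ∀ (A : ValuationSubring Qb) (l : ℕ), l.Prime → A.LiesOverPrime l → l ∉ S →
        ∀ σ : K.fixingSubgroup, (σ : Γ) ∈ A.inertiaSubgroupIn ℚ → f σ = 0}.Finite :=
  finite_homs_of_kfield (trivialKField K ζ hζ) S

/-- The cosets of the fixing subgroup of a number field are finite. -/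
theorem finite_cosets (K : IntermediateField ℚ Qb) [FiniteDimensional ℚ K] :
    Finite (Gal ⧸ K.fixingSubgroup) := by
  refine Finite.of_injective (fun c : Gal ⧸ K.fixingSubgroup => c.out.toAlgHom.comp K.val)
    fun c d hcd => ?_
  rw [← QuotientGroup.out_eq' c, ← QuotientGroup.out_eq' d, QuotientGroup.eq]
  refine (IntermediateField.mem_fixingSubgroup_iff _ _).mpr fun x hx => ?_
  have h : c.out x = d.out x := DFunLike.congr_fun hcd (⟨x, hx⟩ : K)
  show c.out.symm (d.out x) = x
  rw [← h, AlgEquiv.symm_apply_apply]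

variable {𝒪 : Type} [CommRing 𝒪] [IsLocalRing 𝒪] [Finite (ResidueField 𝒪)]

attribute [local instance] dualAlg

/-- A condition which forces unramifiedness outside a finite set has finite tangent space. -/
theorem tangentFinite_of_unramified (hp : (p : 𝒪) ∈ maximalIdeal 𝒪)
    (ρbar : ResidualGaloisRep (ResidueField 𝒪)) (S : Finset ℕ)
    (𝒟 : ∀ ⦃A : Type⦄ [CommRing A] [IsLocalRing A] [Algebra 𝒪 A], GaloisRepAdic A → Prop)
    (h : ∀ ρ : GaloisRepAdic (DualNumber (ResidueField 𝒪)), 𝒟 ρ →
      ∀ q : ℕ, q.Prime → q ∉ S → ρ.IsUnramifiedAt q) :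
    GaloisRep.TangentFinite 𝒪 ρbar 𝒟 := by
  classical
  show Finite (TangentClasses 𝒟 ρbar)
  set k := ResidueField 𝒪
  have hpk : (p : k) = 0 := by
    rw [← map_natCast (residue 𝒪), residue_eq_zero_iff]; exact hp
  have : CharP k p := (CharP.charP_iff_prime_eq_zero hpf.out).mpr hpk
  let _ : Algebra (ZMod p) k := ZMod.algebra k p
  -- the field
  obtain ⟨L₀, hL₀, hbar⟩ := ρbar.factorsThroughFiniteLevel
  obtain ⟨z, hz⟩ := HasEnoughRootsOfUnity.exists_primitiveRoot Qb p
  let K : IntermediateField ℚ Qb := L₀ ⊔ IntermediateField.adjoin ℚ {z}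
  have : FiniteDimensional ℚ (IntermediateField.adjoin ℚ {z}) :=
    IntermediateField.adjoin.finiteDimensional ((AlgebraicClosure.isAlgebraic ℚ).isAlgebraic z).isIntegral
  have : FiniteDimensional ℚ K := IntermediateField.finiteDimensional_sup _ _
  let ζ : K := ⟨z, (le_sup_right : IntermediateField.adjoin ℚ {z} ≤ K)
    (IntermediateField.mem_adjoin_simple_self ℚ z)⟩
  have hζ : IsPrimitiveRoot ζ p :=
    IsPrimitiveRoot.of_map_of_injective (f := K.val) hz Subtype.val_injective
  let G := K.fixingSubgroup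
  have hE : IsCoeff 𝒪 (DualNumber k) := isCoeff_dual
  -- the lifts
  let P : (Gal →* Mat (DualNumber k)) → Prop := fun N => MatCont N ∧ IsLift ρbar hE N ∧
    ∀ q : ℕ, q.Prime → q ∉ S → ∀ A : ValuationSubring Qb, A.LiesOverPrime q →
      ∀ σ ∈ A.inertiaSubgroupIn ℚ, N σ = 1
  have hsnd : ∀ (N : Gal →* Mat (DualNumber k)), IsLift ρbar hE N → ∀ σ : G,
      (N σ).map TrivSqZeroExt.fst = 1 := by
    intro N hN σ
    have hf : ∀ x : DualNumber k, (hE.toK : DualNumber k →+* k) x = TrivSqZeroExt.fst x := by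
      intro x
      have := hE.algHom_eq_toK
        { (TrivSqZeroExt.fstHom k k k).toRingHom with
          commutes' := fun r => by
            show TrivSqZeroExt.fst (algebraMap 𝒪 (DualNumber k) r) = _
            rw [dualAlg_algebraMap, TrivSqZeroExt.fst_inl]; rfl }
      exact (DFunLike.congr_fun this x).symm
    have h1 : mapRep (hE.toK : DualNumber k →+* k) N σ = barMatrix ρbar σ := by rw [hN]
    have h2 : barMatrix ρbar σ = 1 := by
      rw [barMatrix, repMatrix_apply, hbar σ.1 fun x hx =>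
        apply_eq_of_mem_fixing σ.2 ((le_sup_left : L₀ ≤ K) hx), LinearMap.toMatrix_one]
    rw [h2] at h1
    ext i j
    rw [← h1, mapRep_apply, Matrix.map_apply, Matrix.map_apply, hf]
  -- finitely many lifts
  have hXfin : {X : G → Mat k | ∃ N, P N ∧ ∀ σ : G, X σ = (N σ).map TrivSqZeroExt.snd}.Finite := by
    let F := {f : G → ZMod p | (∀ σ τ, f (σ * τ) = f σ + f τ) ∧ IsLevel f ∧
      ∀ (A : ValuationSubring Qb) (l : ℕ), l.Prime → A.LiesOverPrime l → l ∉ S →
        ∀ σ : G, (σ : Γ) ∈ A.inertiaSubgroupIn ℚ → f σ = 0}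
    have hF : Finite F := (finite_homs_unramified K ζ hζ S).to_subtype
    let b := Module.Free.chooseBasis (ZMod p) k
    let build : (Fin 2 → Fin 2 → Module.Free.ChooseBasisIndex (ZMod p) k → F) → (G → Mat k) :=
      fun c σ => Matrix.of fun i j => ∑ t, (c i j t).1 σ • b t
    refine (Set.finite_range build).subset ?_
    rintro X ⟨N, ⟨hc, hl, hu⟩, hX⟩
    have hmul : ∀ σ τ : G, X (σ * τ) = X σ + X τ := fun σ τ => by
      ext i j
      rw [hX, hX, hX, Subgroup.coe_mul, map_mul]
      have h1 := fun a b => congrFun (congrFun (hsnd N hl σ) a) b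
      have h2 := fun a b => congrFun (congrFun (hsnd N hl τ) a) b
      simp only [Matrix.map_apply] at h1 h2
      fin_cases i <;> fin_cases j <;>
        simp [Matrix.mul_apply, Fin.sum_univ_two, TrivSqZeroExt.snd_mul, h1, h2, add_comm]
    obtain ⟨n, hn⟩ := (isArtinianTestAlgebra_dual (𝒪 := 𝒪)).exists_pow_eq_bot
    obtain ⟨L, hL, hLN⟩ := hc.exists_eq_one hn
    refine ⟨fun i j t => ⟨fun σ => b.repr (X σ i j) t, fun σ τ => ?_, ⟨L, hL, fun g s hs => ?_⟩,
      fun A l hlp hA hlS σ hσ => ?_⟩, funext fun σ => ?_⟩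
    · simp only [hmul, Matrix.add_apply, map_add, Finsupp.add_apply]
    · simp only [hmul, hX s, hLN s hs, Matrix.add_apply, Matrix.map_apply]
      by_cases hij : i = j <;> simp [hij, Matrix.one_apply]
    · simp only [hX σ, hu l hlp hlS A hA σ hσ, Matrix.map_apply]
      by_cases hij : i = j <;> simp [hij, Matrix.one_apply]
    · ext i j
      exact b.sum_repr (X σ i j)
  have : Finite (Gal ⧸ G) := finite_cosets K
  have hPfin : Finite {N // P N} := by
    have := hXfin.to_subtype
    let code : {N // P N} → (Gal ⧸ G → Mat (DualNumber k)) ×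
        {X : G → Mat k | ∃ N, P N ∧ ∀ σ : G, X σ = (N σ).map TrivSqZeroExt.snd} :=
      fun N => (fun c => N.1 c.out, ⟨fun σ => (N.1 σ).map TrivSqZeroExt.snd, N.1, N.2, fun _ => rfl⟩)
    refine Finite.of_injective code fun N N' hNN => Subtype.ext (MonoidHom.ext fun σ => ?_)
    obtain ⟨h1, h2⟩ := Prod.ext_iff.mp hNN
    have hG : ∀ τ : G, N.1 τ = N'.1 τ := fun τ => by
      ext i j : 1
      refine TrivSqZeroExt.ext ?_ ?_
      · have a := congrFun (congrFun (hsnd _ N.2.2.1 τ) i) j
        have b := congrFun (congrFun (hsnd _ N'.2.2.1 τ) i) j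
        exact a.trans b.symm
      · exact congrFun (congrFun (congrFun (congrArg Subtype.val h2) τ) i) j
    obtain ⟨τ, hτ⟩ : ∃ τ : G, σ = (QuotientGroup.mk σ : Gal ⧸ G).out * τ :=
      ⟨⟨_, QuotientGroup.eq.mp (QuotientGroup.out_eq' (QuotientGroup.mk σ : Gal ⧸ G))⟩, by simp⟩
    rw [hτ, map_mul, map_mul, hG τ]
    exact congrArg (· * _) (congrFun h1 _)
  -- classes
  have hrep : ∀ x : TangentClasses 𝒟 ρbar, ∃ N : {N // P N}, ∀ y, Quotient.out x = y →
      y.1.IsEquiv (matRep N.1 N.2.1) := by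
    intro x
    obtain ⟨ρ, hD, hres⟩ := Quotient.out x
    obtain ⟨N, hN, hl, he⟩ := exists_isLift_of_residual_isEquiv hE ρ (fun _ => rfl) hres
    refine ⟨⟨N, hN, hl, fun q hq hqS A hA σ hσ => ?_⟩, fun y hy => by subst hy; exact he⟩
    obtain ⟨e⟩ := he
    have h1 := h ρ hD q hq hqS A hA σ hσ
    refine Matrix.toLin'.injective (LinearMap.ext fun v => ?_)
    obtain ⟨w, hw⟩ := e.toLinearEquiv.surjective v
    rw [Matrix.toLin'_apply, Matrix.toLin'_one, LinearMap.id_apply, ← matRep_apply N hN, ← hw,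
      ← e.map_apply, h1]
    rfl
  choose f hf using hrep
  refine Finite.of_injective f fun x y hxy => ?_
  have hx := hf x _ rfl
  have hy := hf y _ rfl
  rw [hxy] at hx
  rw [← Quotient.out_eq x, ← Quotient.out_eq y]
  exact Quotient.sound (isEquiv_trans hx (isEquiv_symm hy))

end FLTAgent.RTCond
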