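import Fermat.Agent.RT.Cond.FlatCond
import Fermat.Agent.RT.Cond.StrictCond
import Fermat.Agent.RT.Cond.TangentFin

/-!
# The flat and strict ordinary deformation problems
-/

set_option autoImplicit false

noncomputable section

open IsLocalRing

namespace FLTAgent.RTCond

variable (𝒪 : Type) [CommRing 𝒪]

/-- Flat at `p`, unramified outside `S`, unipotent inertia at `T`. -/
abbrev flatProblem (p : ℕ) (S T : Finset ℕ) :
    ∀ ⦃A : Type⦄ [CommRing A] [IsLocalRing A] [Algebra 𝒪 A], GaloisRepAdic A → Prop :=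
  fun _A _ _ _ ρ => GaloisRep.flatCondition 𝒪 p S ρ ∧
    ∀ q ∈ T, q.Prime → q ≠ p → ρ.IsUnipotentOnInertiaAt q

/-- Strict ordinary at `p`, unramified outside `S`, unipotent inertia at `T`. -/
abbrev strictProblem (p : ℕ) (S T : Finset ℕ) :
    ∀ ⦃A : Type⦄ [CommRing A] [IsLocalRing A] [Algebra 𝒪 A], GaloisRepAdic A → Prop :=
  fun _A _ _ _ ρ => GaloisRep.strictOrdinaryCondition 𝒪 p S ρ ∧
    ∀ q ∈ T, q.Prime → q ≠ p → ρ.IsUnipotentOnInertiaAt q

variable [IsDomain 𝒪] [IsDiscreteValuationRing 𝒪] [IsAdicComplete (maximalIdeal 𝒪) 𝒪]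
  [Finite (ResidueField 𝒪)] {p : ℕ} [Fact p.Prime]

theorem flatProblem_isDeformationCondition (hp : (p : 𝒪) ∈ maximalIdeal 𝒪) (S T : Finset ℕ) :
    GaloisRep.IsDeformationCondition 𝒪 (flatProblem 𝒪 p S T) :=
  isDeformationCondition_flat 𝒪 hp S T

theorem strictProblem_isDeformationCondition (hp2 : p ≠ 2) (hp : (p : 𝒪) ∈ maximalIdeal 𝒪)
    (S T : Finset ℕ) : GaloisRep.IsDeformationCondition 𝒪 (strictProblem 𝒪 p S T) :=
  isDeformationCondition_strictOrdinary 𝒪 hp2 hp S T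

theorem flatProblem_tangentFinite (hp : (p : 𝒪) ∈ maximalIdeal 𝒪)
    (ρbar : ResidualGaloisRep (ResidueField 𝒪)) (S T : Finset ℕ) :
    GaloisRep.TangentFinite 𝒪 ρbar (flatProblem 𝒪 p S T) := by
  let := Deformation.dualAlg 𝒪
  exact tangentFinite_of_unramified (p := p) hp ρbar S _ fun ρ h => h.1.2.2

theorem strictProblem_tangentFinite (hp : (p : 𝒪) ∈ maximalIdeal 𝒪)
    (ρbar : ResidualGaloisRep (ResidueField 𝒪)) (S T : Finset ℕ) :
    GaloisRep.TangentFinite 𝒪 ρbar (strictProblem 𝒪 p S T) := by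
  let := Deformation.dualAlg 𝒪
  exact tangentFinite_of_unramified (p := p) hp ρbar S _ fun ρ h => h.1.2.2

end FLTAgent.RTCond
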