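import Fermat.Agent.RT.Cond.Basic
import Fermat.Agent.RT.Cond.InertiaCyclo
import Fermat.Prelude.Def_GaloisRep_StrictOrdinary

/-!
# Strict ordinarity with cyclotomic determinant, by equations

Let `σ₀` be an inertia element at `P` with `c = χ σ₀ ≢ 1`, and `U = N σ₀`. With cyclotomic
determinant, strict ordinarity at `P` says `(U - 1)(U - c) = 0`, `(U - c)(N σ - 1) = 0` on inertia,
and on decomposition `(U - c) N σ = z (U - c)`, `N σ (U - 1) = χ σ z (U - 1)` where
`z = tr ((U - c) N σ) / (1 - c)`.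
-/

set_option autoImplicit false
set_option linter.unusedSectionVars false

noncomputable section

open IsLocalRing

namespace FLTAgent.RTCond

open FLTAgent.Deformation FLTAgent.GalRep

variable {𝒪 : Type} [CommRing 𝒪]

section Ops

variable {A B : Type} [CommRing A] [Algebra 𝒪 A] [CommRing B] [Algebra 𝒪 B]

/-- Conjugation by a unit matrix. -/
def cj (g : (Mat A)ˣ) (X : Mat A) : Mat A := g * X * ↑g⁻¹

theorem cj_mul (g : (Mat A)ˣ) (X Y : Mat A) : cj g X * cj g Y = cj g (X * Y) := by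
  simp [cj, mul_assoc]

theorem cj_sub (g : (Mat A)ˣ) (X Y : Mat A) : cj g X - cj g Y = cj g (X - Y) := by
  simp [cj, mul_sub, sub_mul]

theorem cj_one (g : (Mat A)ˣ) : cj g 1 = 1 := by simp [cj]

theorem cj_smul (g : (Mat A)ˣ) (a : A) (X : Mat A) : a • cj g X = cj g (a • X) := by
  simp [cj, Matrix.mul_smul, Matrix.smul_mul]

theorem trace_cj (g : (Mat A)ˣ) (X : Mat A) : (cj g X).trace = X.trace :=
  Matrix.trace_units_conj g X

theorem cj_inj (g : (Mat A)ˣ) {X : Mat A} : cj g X = 0 ↔ X = 0 := by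
  refine ⟨fun h => ?_, fun h => by simp [cj, h]⟩
  have := congrArg (fun Y => (↑g⁻¹ : Mat A) * Y * g) h
  simpa [cj, mul_assoc] using this

theorem map_smul_mat (f : A →ₐ[𝒪] B) (a : A) (X : Mat A) :
    (a • X).map f = f a • X.map f := by ext i j; simp

theorem map_mul_mat (f : A →ₐ[𝒪] B) (X Y : Mat A) : (X * Y).map f = X.map f * Y.map f :=
  Matrix.map_mul (f := (f : A →+* B))

theorem map_sub_mat (f : A →ₐ[𝒪] B) (X Y : Mat A) : (X - Y).map f = X.map f - Y.map f :=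
  Matrix.map_sub _ (map_sub f) X Y

theorem map_one_mat (f : A →ₐ[𝒪] B) : (1 : Mat A).map f = 1 :=
  Matrix.map_one _ (map_zero f) (map_one f)

theorem trace_map_mat (f : A →ₐ[𝒪] B) (X : Mat A) : (X.map f).trace = f X.trace := by
  simp [Matrix.trace]

end Ops

variable {p : ℕ} [Fact p.Prime] (ψ : ℤ_[p] →+* 𝒪)

/-- The data `(σ₀, u)`: an element and the inverse of `1 - χ σ₀`. -/
structure Pivot where
  σ₀ : Gal
  u : 𝒪
  hu : u * (1 - detChar ψ σ₀) = 1

variable {ψ} (Q : Pivot ψ)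

section Expr

variable {A : Type} [CommRing A] [Algebra 𝒪 A] (N : Gal →* Mat A)

/-- `U - 1`. -/
def uA : Mat A := N Q.σ₀ - 1

/-- `U - c`. -/
def uB : Mat A := N Q.σ₀ - algebraMap 𝒪 A (detChar ψ Q.σ₀) • (1 : Mat A)

/-- `z = u tr ((U - c) N σ)`. -/
def zOf (σ : Gal) : A := algebraMap 𝒪 A Q.u * (uB Q N * N σ).trace

theorem uA_conj (g : (Mat A)ˣ) : uA Q (conjRep g N) = cj g (uA Q N) := by
  rw [uA, uA, ← cj_sub, cj_one]; rfl

theorem uB_conj (g : (Mat A)ˣ) : uB Q (conjRep g N) = cj g (uB Q N) := by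
  rw [uB, uB, ← cj_sub, ← cj_smul, cj_one]; rfl

theorem zOf_conj (g : (Mat A)ˣ) (σ : Gal) : zOf Q (conjRep g N) σ = zOf Q N σ := by
  rw [zOf, zOf, uB_conj, show conjRep g N σ = cj g (N σ) from rfl, cj_mul, trace_cj]

variable {B : Type} [CommRing B] [Algebra 𝒪 B] (f : A →ₐ[𝒪] B)

theorem uA_map : uA Q (mapRep (f : A →+* B) N) = (uA Q N).map f := by
  rw [uA, uA, map_sub_mat, map_one_mat]; rfl

theorem uB_map : uB Q (mapRep (f : A →+* B) N) = (uB Q N).map f := by
  rw [uB, uB, map_sub_mat, map_smul_mat, map_one_mat, AlgHom.commutes]; rfl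

theorem zOf_map (σ : Gal) : zOf Q (mapRep (f : A →+* B) N) σ = f (zOf Q N σ) := by
  rw [zOf, zOf, uB_map, map_mul, AlgHom.commutes, ← trace_map_mat, map_mul_mat]; rfl

end Expr

/-- The equations of strict ordinarity for the decomposition group `D` and inertia group `I`. -/
def StrictEq (D I : Set Gal) : ∀ ⦃A : Type⦄ [CommRing A] [Algebra 𝒪 A], (Gal →* Mat A) → Prop :=
  fun A _ _ N => ((∀ _ : Unit, uA Q N * uB Q N = 0) ∧ ∀ σ : I, uB Q N * (N σ - 1) = 0) ∧
    (∀ σ : D, uB Q N * N σ - zOf Q N σ • uB Q N = 0) ∧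
      ∀ σ : D, N σ * uA Q N - (algebraMap 𝒪 A (detChar ψ σ) * zOf Q N σ) • uA Q N = 0

theorem isMatEq_strictEq (D I : Set Gal) : IsMatEq 𝒪 (StrictEq Q D I) := by
  refine ((isMatEq_of_expr (fun (_ : Unit) _A _ _ N => uA Q N * uB Q N) ?_ ?_).and
    (isMatEq_of_expr (fun (σ : I) _A _ _ N => uB Q N * (N σ - 1)) ?_ ?_)).and
    ((isMatEq_of_expr (fun (σ : D) _A _ _ N => uB Q N * N σ - zOf Q N σ • uB Q N) ?_ ?_).and
    (isMatEq_of_expr (fun (σ : D) A _ _ N =>
      N σ * uA Q N - (algebraMap 𝒪 A (detChar ψ σ) * zOf Q N σ) • uA Q N) ?_ ?_))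
  · intro _ A _ _ g N
    rw [uA_conj, uB_conj, cj_mul]; rfl
  · intro _ A B _ _ _ _ f N
    rw [uA_map, uB_map, map_mul_mat]
  · intro σ A _ _ g N
    rw [uB_conj, show conjRep g N σ = cj g (N σ) from rfl, ← cj_one g, cj_sub, cj_mul, cj_one, cj]
  · intro σ A B _ _ _ _ f N
    rw [uB_map, map_mul_mat, map_sub_mat, map_one_mat]; rfl
  · intro σ A _ _ g N
    rw [uB_conj, zOf_conj, show conjRep g N σ = cj g (N σ) from rfl, cj_mul, cj_smul, cj_sub]; rfl
  · intro σ A B _ _ _ _ f N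
    rw [uB_map, zOf_map, map_sub_mat, map_mul_mat, map_smul_mat]; rfl
  · intro σ A _ _ g N
    rw [uA_conj, zOf_conj, show conjRep g N σ = cj g (N σ) from rfl, cj_mul, cj_smul, cj_sub]; rfl
  · intro σ A B _ _ _ _ f N
    rw [uA_map, zOf_map, map_sub_mat, map_mul_mat, map_smul_mat, map_mul, AlgHom.commutes]; rfl

section Shape

variable {A : Type} [CommRing A] [IsLocalRing A] [Algebra 𝒪 A]

variable (ψ) in
/-- The strictly ordinary shape in a fixed basis. -/
def StrictShape (D I : Set Gal) (N : Gal →* Mat A) : Prop :=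
  (∀ σ ∈ D, N σ 1 0 = 0 ∧ N σ 0 0 = algebraMap 𝒪 A (detChar ψ σ) * N σ 1 1) ∧
    ∀ σ ∈ I, N σ 1 0 = 0 ∧ N σ 1 1 = 1

theorem mat_ext {R : Type} {X Y : Matrix (Fin 2) (Fin 2) R} (h00 : X 0 0 = Y 0 0)
    (h01 : X 0 1 = Y 0 1) (h10 : X 1 0 = Y 1 0) (h11 : X 1 1 = Y 1 1) : X = Y := by
  ext i j
  fin_cases i <;> fin_cases j <;> assumption

theorem strictEq_of_shape {D I : Set Gal} (hID : I ⊆ D) (hσ₀ : Q.σ₀ ∈ I) (N : Gal →* Mat A)
    (h : StrictShape ψ D I N) : StrictEq Q D I N := by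
  have h0 := h.2 _ hσ₀
  have h0' := h.1 _ (hID hσ₀)
  set c := algebraMap 𝒪 A (detChar ψ Q.σ₀) with hc
  have hu : algebraMap 𝒪 A Q.u * (1 - c) = 1 := by
    rw [hc, ← map_one (algebraMap 𝒪 A), ← map_sub, ← map_mul, Q.hu]
  have hU : N Q.σ₀ = !![c, N Q.σ₀ 0 1; 0, 1] :=
    mat_ext (by rw [h0'.2, h0.2, mul_one]; rfl) rfl h0.1 h0.2
  set y := N Q.σ₀ 0 1
  have hA' : uA Q N = !![c - 1, y; 0, 0] := by
    rw [uA, hU]; refine mat_ext ?_ ?_ ?_ ?_ <;> simp
  have hB' : uB Q N = !![0, y; 0, 1 - c] := by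
    rw [uB, ← hc, hU]; refine mat_ext ?_ ?_ ?_ ?_ <;> simp
  have hz : ∀ σ ∈ D, zOf Q N σ = N σ 1 1 := fun σ hσ => by
    have htr : (uB Q N * N σ).trace = (1 - c) * N σ 1 1 := by
      rw [hB', Matrix.trace_fin_two]
      simp [Matrix.mul_apply, Fin.sum_univ_two, Matrix.vecMul, dotProduct, (h.1 σ hσ).1]
    rw [zOf, htr, ← mul_assoc, hu, one_mul]
  refine ⟨⟨fun _ => ?_, fun σ => ?_⟩, fun σ => ?_, fun σ => ?_⟩
  · rw [hA', hB']
    refine mat_ext ?_ ?_ ?_ ?_ <;> simp [Matrix.mul_apply, Fin.sum_univ_two, Matrix.vecMul, dotProduct] <;> ring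
  · rw [hB']
    refine mat_ext ?_ ?_ ?_ ?_ <;>
      simp [Matrix.mul_apply, Fin.sum_univ_two, Matrix.vecMul, dotProduct, (h.2 _ σ.2).1, (h.2 _ σ.2).2]
  · rw [hz _ σ.2, hB']
    refine mat_ext ?_ ?_ ?_ ?_ <;>
      simp [Matrix.mul_apply, Fin.sum_univ_two, Matrix.vecMul, dotProduct, (h.1 _ σ.2).1] <;> try ring
  · rw [hz _ σ.2, hA']
    refine mat_ext ?_ ?_ ?_ ?_ <;>
      simp [Matrix.mul_apply, Fin.sum_univ_two, Matrix.vecMul, dotProduct, (h.1 _ σ.2).1, (h.1 _ σ.2).2] <;> ring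

/-- An idempotent of trace one is conjugate to `diag (1, 0)`. -/
theorem exists_cj_diag {e : Mat A} (he : e * e = e) (htr : e.trace = 1) :
    ∃ g : (Mat A)ˣ, e * (g : Mat A) = (g : Mat A) * !![1, 0; 0, 0] := by
  have hd : e 1 1 = 1 - e 0 0 := by rw [Matrix.trace_fin_two] at htr; linear_combination htr
  have h00 : e 0 0 * e 0 0 + e 0 1 * e 1 0 = e 0 0 := by
    have := congrFun (congrFun he 0) 0; simpa [Matrix.mul_apply, Fin.sum_univ_two] using this
  rcases IsLocalRing.isUnit_or_isUnit_one_sub_self (e 0 0) with h | h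
  · have hM : IsUnit !![e 0 0, -e 0 1; e 1 0, e 0 0] := by
      rw [Matrix.isUnit_iff_isUnit_det, Matrix.det_fin_two]
      simp only [Matrix.of_apply, Matrix.cons_val', Matrix.cons_val_zero, Matrix.cons_val_one,
        Matrix.cons_val_fin_one]
      convert h using 1
      linear_combination h00
    refine ⟨hM.unit, ?_⟩
    rw [IsUnit.unit_spec]
    refine mat_ext ?_ ?_ ?_ ?_ <;> simp [Matrix.mul_apply, Fin.sum_univ_two, Matrix.vecMul, dotProduct, hd] <;>
      grind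
  · have hM : IsUnit !![e 0 1, e 1 1; e 1 1, -e 1 0] := by
      rw [Matrix.isUnit_iff_isUnit_det, Matrix.det_fin_two]
      simp only [Matrix.of_apply, Matrix.cons_val', Matrix.cons_val_zero, Matrix.cons_val_one,
        Matrix.cons_val_fin_one]
      rw [← IsUnit.neg_iff]
      convert h using 1
      rw [hd]
      linear_combination h00
    refine ⟨hM.unit, ?_⟩
    rw [IsUnit.unit_spec]
    refine mat_ext ?_ ?_ ?_ ?_ <;> simp [Matrix.mul_apply, Fin.sum_univ_two, Matrix.vecMul, dotProduct, hd] <;>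
      grind

theorem exists_shape_of_strictEq {D I : Set Gal} (hID : I ⊆ D) (N : Gal →* Mat A)
    (hdet : DetEq (detChar ψ) N) (h : StrictEq Q D I N) :
    ∃ g : (Mat A)ˣ, StrictShape ψ D I (conjRep g N) := by
  obtain ⟨⟨h0, -⟩, -, -⟩ := id h
  set c := algebraMap 𝒪 A (detChar ψ Q.σ₀) with hc
  set u := algebraMap 𝒪 A Q.u
  set U := N Q.σ₀ with hUdef
  have hu : u * (1 - c) = 1 := by
    rw [hc, ← map_one (algebraMap 𝒪 A), ← map_sub, ← map_mul, Q.hu]
  have hd : U.det = c := sub_eq_zero.mp (hdet Q.σ₀)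
  -- Cayley-Hamilton against the quadratic equation gives the trace
  have h0' : (U - 1) * (U - c • (1 : Mat A)) = 0 := h0 ()
  have htU : U.trace = 1 + c := by
    have hCH : U * U - U.trace • U + U.det • (1 : Mat A) = 0 := by
      refine mat_ext ?_ ?_ ?_ ?_ <;>
        simp [Matrix.mul_apply, Fin.sum_univ_two, Matrix.vecMul, dotProduct, Matrix.trace_fin_two, Matrix.det_fin_two] <;>
        ring
    have h1 : (U.trace - (1 + c)) • U = 0 := by
      have e : (U.trace - (1 + c)) • U =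
          (U - 1) * (U - c • (1 : Mat A)) - (U * U - U.trace • U + U.det • (1 : Mat A)) := by
        rw [hd]
        simp only [sub_mul, mul_sub, Matrix.mul_smul, one_mul, mul_one, sub_smul, add_smul,
          one_smul]
        abel
      rw [e, h0', hCH, sub_zero]
    have h2 := congrArg (fun X : Mat A => X * N Q.σ₀⁻¹) h1
    rw [hUdef] at h2
    simp only [Matrix.smul_mul, ← map_mul, mul_inv_cancel, map_one, zero_mul] at h2
    have h3 := congrFun (congrFun h2 0) 0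
    rw [← hUdef] at h3
    simpa [sub_eq_zero] using h3
  set e : Mat A := (-u) • (U - 1) with he
  have hee : e * e = e := by
    have h1 : (U - 1) * (U - 1) = (c - 1) • (U - 1) := by
      rw [← sub_eq_zero, ← h0']
      simp only [sub_mul, mul_sub, Matrix.mul_smul, one_mul, mul_one, sub_smul, smul_sub,
        one_smul]
      abel
    rw [he, Matrix.smul_mul, Matrix.mul_smul, h1, smul_smul, smul_smul]
    congr 1
    linear_combination (-u) * hu
  have htr : e.trace = 1 := by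
    rw [he, Matrix.trace_smul, Matrix.trace_sub, htU, Matrix.trace_one, smul_eq_mul]
    simp only [Fintype.card_fin]
    push_cast
    linear_combination hu
  obtain ⟨g, hg⟩ := exists_cj_diag hee htr
  refine ⟨g⁻¹, ?_⟩
  have hconj := (isMatEq_strictEq Q D I).conj g⁻¹ N h
  obtain ⟨⟨-, hI⟩, hB, hA⟩ := hconj
  set N' := conjRep g⁻¹ N
  have he' : cj g⁻¹ e = !![1, 0; 0, 0] := by
    rw [cj, inv_inv, mul_assoc, hg, ← mul_assoc, Units.inv_mul, one_mul]
  have hA' : uA Q N' = !![c - 1, 0; 0, 0] := by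
    have h1 : uA Q N = (c - 1) • e := by
      rw [he, smul_smul, show (c - 1) * -u = 1 by linear_combination hu, one_smul]; rfl
    rw [uA_conj, h1, ← cj_smul, he']
    refine mat_ext ?_ ?_ ?_ ?_ <;> simp
  have hB' : uB Q N' = !![0, 0; 0, 1 - c] := by
    have h1 : uB Q N' = uA Q N' + (1 - c) • (1 : Mat A) := by
      rw [uB, uA, ← hc, sub_smul, one_smul]; abel
    rw [h1, hA']
    refine mat_ext ?_ ?_ ?_ ?_ <;> simp
  have hunit : ∀ x : A, (1 - c) * x = 0 → x = 0 := fun x hx => by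
    linear_combination u * hx - x * hu
  have hz : ∀ σ, zOf Q N' σ = N' σ 1 1 := fun σ => by
    rw [zOf, hB', Matrix.trace_fin_two]
    simp [Matrix.mul_apply, Fin.sum_univ_two, Matrix.vecMul, dotProduct]
    linear_combination (N' σ 1 1) * hu
  have hlow : ∀ σ ∈ D, N' σ 1 0 = 0 := fun σ hσ => by
    have h1 := congrFun (congrFun (hB ⟨σ, hσ⟩) 1) 0
    rw [hB'] at h1
    exact hunit _ (by simpa [Matrix.mul_apply, Fin.sum_univ_two, Matrix.vecMul, dotProduct] using h1)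
  refine ⟨fun σ hσ => ⟨hlow σ hσ, ?_⟩, fun σ hσ => ⟨hlow σ (hID hσ), ?_⟩⟩
  · have h2 := congrFun (congrFun (hA ⟨σ, hσ⟩) 0) 0
    rw [hz σ, hA'] at h2
    simp [Matrix.mul_apply, Fin.sum_univ_two, Matrix.vecMul, dotProduct] at h2
    exact sub_eq_zero.mp (hunit _ (by linear_combination -h2))
  · have h1 := congrFun (congrFun (hI ⟨σ, hσ⟩) 1) 1
    rw [hB'] at h1
    exact sub_eq_zero.mp (hunit _ (by simpa [Matrix.mul_apply, Fin.sum_univ_two, Matrix.vecMul, dotProduct] using h1))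

end Shape

end FLTAgent.RTCond
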